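/-
S12 programme, brick 757 TORIC part 9d, ABSTRACT ASSEMBLY (helper44): **S15 forces the kernel to be
toric at every prime `ℓ ≠ p`, and `3 ∣ Δ`.**

`W` an integral Weierstrass curve, semistable (`ℓ ∣ Δ → ℓ ∤ c₄`), `2 ∣ Δ`; `p ∉ {2,3,5,7,13}` a prime;
`t ∈ W(ℚ̄)[p]`, `t ≠ 0`; `W'` an integral model of Vélu's quotient curve scaled by `u = p^k`
(`a_i(W') = u^i a_i(veluCurve V t p)`), `Δ(W') ≠ 0`; `hDQ : Δ(veluCurve) * psiProd = Δ(V)^p` (VELU-Q);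
`hpt` : for every `p`-torsion point `R` outside `⟨t⟩` the scaled Vélu image `(u² veluX R, u³ veluY R)` is a
nonsingular point of `W'`, `G_ℚ`-fixed, of order `p` (brick 9a-point); `hex` : such an `R` exists.
Given the (frozen) statement of S15 as a hypothesis (`S15Statement`):

* `three_dvd_Δ_of_fixed` : `3 ∣ Δ(W)` (otherwise `W'` has good reduction at `3` and the image point would
  reduce to a point of order `p > 7` of a group with at most `7` elements — no S15 needed here);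
* `toric_of_S15_gen` : for every prime `ℓ ≠ p` and every place `A` over `ℓ`, `t` lies in the zero component of
  `W` at `A` (if not, `nontoric_model` puts the image of some `R₀ ∈ E⁰[p] ∖ ⟨t⟩` in the zero component of `W'`
  at `A`, with `ℓ ∣ Δ'`, `ℓ ∤ c₄'`, against S15);
* `toric_of_S15` : the same for the Frey curve (`W = P.freyCurveInt`, points of `P.freyCurve⁄ℚ̄`).
-/
import Mathlib
import Fermat.Agent.S12P.Toric44.Toric3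
import Fermat.Agent.S12P.Count38.Count
import Fermat.Agent.S13.UnramVal
import Fermat.Agent.S04.FreyIntegral

set_option autoImplicit false
set_option linter.unusedSectionVars false

open WeierstrassCurve WeierstrassCurve.Affine

namespace Fermat.Agent.S12P.Toric44

open Fermat.Agent.InertiaMult Fermat.Agent.S05.Inertia Fermat.Agent.ES.EC Fermat.Agent.MAZ.Loc44
open Fermat.Agent.S12P.VeluDef51

local notation "Qb" => AlgebraicClosure ℚ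
local notation "GQ" => (AlgebraicClosure ℚ ≃ₐ[ℚ] AlgebraicClosure ℚ)

/-- The statement of S15 (`WeierstrassCurve.mazurStepThree_not_inZeroComponentAt`), as a proposition. -/
def S15Statement : Prop :=
  ∀ {p : ℕ} (_ : p.Prime) (_ : p ∉ ({2, 3, 5, 7, 13} : Finset ℕ))
    (W : WeierstrassCurve ℤ) (_ : W.Δ ≠ 0)
    (Q : ((W.map (Int.castRingHom ℚ))⁄(AlgebraicClosure ℚ)).Point)
    (_ : ∀ σ : AlgebraicClosure ℚ ≃ₐ[ℚ] AlgebraicClosure ℚ, σ • Q = Q)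
    (_ : addOrderOf Q = p)
    (_ : (2 : ℤ) ∣ W.Δ) (_ : ¬ (2 : ℤ) ∣ W.c₄)
    (_ : ∀ A : ValuationSubring (AlgebraicClosure ℚ), A.LiesOverPrime 2 → ¬ W.InZeroComponentAt A Q)
    (_ : (3 : ℤ) ∣ W.Δ) (_ : ¬ (3 : ℤ) ∣ W.c₄)
    (_ : ∀ A : ValuationSubring (AlgebraicClosure ℚ), A.LiesOverPrime 3 → ¬ W.InZeroComponentAt A Q)
    {ℓ : ℕ} (_ : ℓ.Prime) (_ : ℓ ≠ p) (_ : (ℓ : ℤ) ∣ W.Δ) (_ : ¬ (ℓ : ℤ) ∣ W.c₄)
    (A : ValuationSubring (AlgebraicClosure ℚ)) (_ : A.LiesOverPrime ℓ),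
    ¬ W.InZeroComponentAt A Q

section Assembly

variable (W W' : WeierstrassCurve ℤ) (hΔ : W.Δ ≠ 0) (hΔ' : W'.Δ ≠ 0)
  (hss : ∀ ℓ : ℕ, ℓ.Prime → (ℓ : ℤ) ∣ W.Δ → ¬ (ℓ : ℤ) ∣ W.c₄)
  {p : ℕ} (hp : p.Prime) (hp' : p ∉ ({2, 3, 5, 7, 13} : Finset ℕ))
  {VL : Affine Qb} (hVL : VL = (W.map (Int.castRingHom Qb)).toAffine)
  {t : VL.Point} (ht : p • t = 0) (ht0 : t ≠ 0)
  (hDQ : (veluCurve VL t p).Δ * Fermat.Agent.MAZ.ModInv.psiProd VL t p = VL.Δ ^ p)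
  {k : ℕ}
  (h₁ : ((W'.a₁ : ℤ) : Qb) = ((p : ℕ) : Qb) ^ k * (veluCurve VL t p).a₁)
  (h₂ : ((W'.a₂ : ℤ) : Qb) = (((p : ℕ) : Qb) ^ k) ^ 2 * (veluCurve VL t p).a₂)
  (h₃ : ((W'.a₃ : ℤ) : Qb) = (((p : ℕ) : Qb) ^ k) ^ 3 * (veluCurve VL t p).a₃)
  (h₄ : ((W'.a₄ : ℤ) : Qb) = (((p : ℕ) : Qb) ^ k) ^ 4 * (veluCurve VL t p).a₄)
  (h₆ : ((W'.a₆ : ℤ) : Qb) = (((p : ℕ) : Qb) ^ k) ^ 6 * (veluCurve VL t p).a₆)
  (hpt : ∀ R : VL.Point, p • R = 0 → R ∉ AddSubgroup.zmultiples t →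
    ∃ hns : ((W'.map (Int.castRingHom ℚ))⁄Qb).Nonsingular
        ((((p : ℕ) : Qb) ^ k) ^ 2 * veluX VL t p R) ((((p : ℕ) : Qb) ^ k) ^ 3 * veluY VL t p R),
      addOrderOf (Point.some _ _ hns) = p ∧ ∀ σ : GQ, σ • Point.some _ _ hns = Point.some _ _ hns)
  (hex : ∃ R : VL.Point, p • R = 0 ∧ R ∉ AddSubgroup.zmultiples t)

include hp' in
theorem p_ne_two : p ≠ 2 := by
  rintro rfl
  simp at hp'

include hp' in
theorem p_ne_three : p ≠ 3 := by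
  rintro rfl
  simp at hp'

include hp hp' hVL ht ht0 hDQ h₁ h₂ h₃ h₄ h₆ hpt hex in
/-- **`3 ∣ Δ(W)`**: otherwise `W'` has good reduction at `3`, and a rational point of order `p > 7`
would inject into a group with at most `7` elements. -/
theorem three_dvd_Δ_of_fixed : (3 : ℤ) ∣ W.Δ := by
  classical
  by_contra h3
  obtain ⟨R, hR, hRt⟩ := hex
  obtain ⟨hns, hQord, hQfix⟩ := hpt R hR hRt
  set Q' : ((W'.map (Int.castRingHom ℚ))⁄Qb).Point := Point.some _ _ hns with hQ'def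
  obtain ⟨A, hA⟩ := Fermat.Agent.S13.UnramVal.exists_liesOverPrime (L := Qb) Nat.prime_three
  have hp2 := p_ne_two hp'
  have hp3 := p_ne_three hp'
  have hv : A.valuation ((W.Δ : ℤ) : Qb) = 1 :=
    valuation_intCast_eq_one Nat.prime_three hA (by exact_mod_cast h3)
  have htin : InZero W A t :=
    Fermat.Agent.S12P.LocUnit28.inZero_of_val_Δ_eq_one W hv hVL t
  have hu := valuation_p_pow_eq_one Nat.prime_three hp hp3 hA k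
  have hall := (toric_model W W' Nat.prime_three hp hp2 hp3 hA hVL ht ht0 htin hDQ hu
    h₁ h₂ h₃ h₄ h₆).2.2 (by exact_mod_cast h3)
  have hin : W'.InZeroComponentAt A Q' := hall.2 (TorsionLift20.baseChange_eq_map W') Q'
  exact Fermat.Agent.S12P.Count38.h3_of_fixed W' hp hp' Q' hQfix hQord A hA hin

include hss hp hp' hVL ht ht0 hDQ h₁ h₂ h₃ h₄ h₆ hΔ in
/-- the discriminant of the model at a bad prime `ℓ ≠ p` (both cases). -/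
theorem dvd_Δ_model_of_dvd {ℓ : ℕ} (hℓ : ℓ.Prime) (hℓp : ℓ ≠ p) (hℓΔ : (ℓ : ℤ) ∣ W.Δ) :
    (ℓ : ℤ) ∣ W'.Δ := by
  classical
  obtain ⟨A, hA⟩ := Fermat.Agent.S13.UnramVal.exists_liesOverPrime (L := Qb) hℓ
  have hp2 := p_ne_two hp'
  have hu := valuation_p_pow_eq_one hℓ hp (Ne.symm hℓp) hA k
  by_cases htin : InZero W A t
  · exact (toric_model W W' hℓ hp hp2 (Ne.symm hℓp) hA hVL ht ht0 htin hDQ hu
      h₁ h₂ h₃ h₄ h₆).2.1 hℓΔ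
  · exact (nontoric_model W W' hΔ hℓ hp hp2 (Ne.symm hℓp) hℓΔ (hss ℓ hℓ hℓΔ) hA hVL ht ht0 htin hu
      h₁ h₂ h₃ h₄ h₆).1

include hp hVL ht h₁ h₂ h₃ h₄ in
/-- `c₄` of the model at `ℓ ∈ {2, 3}` (both cases). -/
theorem not_dvd_c₄_model_of_small {ℓ : ℕ} (hℓ : ℓ.Prime) (hℓp : ℓ ≠ p) (h240 : ℓ ∣ 240)
    (hℓc : ¬ (ℓ : ℤ) ∣ W.c₄) : ¬ (ℓ : ℤ) ∣ W'.c₄ := by
  classical
  obtain ⟨A, hA⟩ := Fermat.Agent.S13.UnramVal.exists_liesOverPrime (L := Qb) hℓ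
  have hvp : A.valuation ((p : ℕ) : Qb) = 1 := valuation_p_eq_one hp hℓ hℓp hA
  have hu := valuation_p_pow_eq_one hℓ hp (Ne.symm hℓp) hA k
  exact not_dvd_c₄_model_small W W' hvp hVL ht hu h₁ h₂ h₃ h₄ hℓ hA h240 hℓc

include hΔ hΔ' hss hp hp' hVL ht ht0 hDQ h₁ h₂ h₃ h₄ h₆ hpt hex in
/-- **9d, abstract form: S15 forces `t` into the zero component at every place over every `ℓ ≠ p`.** -/
theorem toric_of_S15_gen (hS15 : S15Statement) (h2Δ : (2 : ℤ) ∣ W.Δ)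
    {ℓ : ℕ} (hℓ : ℓ.Prime) (hℓp : ℓ ≠ p) (A : ValuationSubring Qb) (hA : A.LiesOverPrime ℓ) :
    InZero W A t := by
  classical
  by_contra htn
  have hp2 := p_ne_two hp'
  have hp3 := p_ne_three hp'
  have hvp : A.valuation ((p : ℕ) : Qb) = 1 := valuation_p_eq_one hp hℓ hℓp hA
  have hu := valuation_p_pow_eq_one hℓ hp (Ne.symm hℓp) hA k
  -- `ℓ` is a bad prime
  have hℓΔ : (ℓ : ℤ) ∣ W.Δ := by
    by_contra hgood
    exact htn (Fermat.Agent.S12P.LocUnit28.inZero_of_val_Δ_eq_one W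
      (valuation_intCast_eq_one hℓ hA hgood) hVL t)
  have hℓc := hss ℓ hℓ hℓΔ
  obtain ⟨hℓΔ', hℓc', ⟨R₀, hR₀, hR₀0, hR₀in, hR₀t⟩, himg⟩ :=
    nontoric_model W W' hΔ hℓ hp hp2 (Ne.symm hℓp) hℓΔ hℓc hA hVL ht ht0 htn hu h₁ h₂ h₃ h₄ h₆
  -- the image `Q'` of `R₀`
  obtain ⟨hns, hQord, hQfix⟩ := hpt R₀ hR₀ hR₀t
  set Q' : ((W'.map (Int.castRingHom ℚ))⁄Qb).Point := Point.some _ _ hns with hQ'def
  have hin : W'.InZeroComponentAt A Q' :=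
    himg R₀ hR₀ hR₀0 hR₀in (TorsionLift20.baseChange_eq_map W') hns
  -- the hypotheses of S15 for `(W', Q')`
  have h3Δ : (3 : ℤ) ∣ W.Δ :=
    three_dvd_Δ_of_fixed W W' hp hp' hVL ht ht0 hDQ h₁ h₂ h₃ h₄ h₆ hpt hex
  have h2Δ' : (2 : ℤ) ∣ W'.Δ := by
    exact_mod_cast dvd_Δ_model_of_dvd W W' hΔ hss hp hp' hVL ht ht0 hDQ h₁ h₂ h₃ h₄ h₆
      Nat.prime_two (Ne.symm hp2) (by exact_mod_cast h2Δ)
  have h3Δ' : (3 : ℤ) ∣ W'.Δ := by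
    exact_mod_cast dvd_Δ_model_of_dvd W W' hΔ hss hp hp' hVL ht ht0 hDQ h₁ h₂ h₃ h₄ h₆
      Nat.prime_three (Ne.symm hp3) (by exact_mod_cast h3Δ)
  have h2c' : ¬ (2 : ℤ) ∣ W'.c₄ := by
    have := not_dvd_c₄_model_of_small W W' hp hVL ht h₁ h₂ h₃ h₄ Nat.prime_two (Ne.symm hp2)
      (by norm_num) (by exact_mod_cast hss 2 Nat.prime_two (by exact_mod_cast h2Δ))
    exact_mod_cast this
  have h3c' : ¬ (3 : ℤ) ∣ W'.c₄ := by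
    have := not_dvd_c₄_model_of_small W W' hp hVL ht h₁ h₂ h₃ h₄ Nat.prime_three (Ne.symm hp3)
      (by norm_num) (by exact_mod_cast hss 3 Nat.prime_three (by exact_mod_cast h3Δ))
    exact_mod_cast this
  exact hS15 hp hp' W' hΔ' Q' hQfix hQord h2Δ' h2c'
    (Fermat.Agent.S12P.Count38.h2_of_fixed W' hp hp' Q' hQfix hQord) h3Δ' h3c'
    (Fermat.Agent.S12P.Count38.h3_of_fixed W' hp hp' Q' hQfix hQord) hℓ hℓp hℓΔ' hℓc' A hA hin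

end Assembly

/-! ### the Frey curve -/

section Frey

open Fermat.Agent.S04.FreyIntegral

theorem two_dvd_freyCurveInt_Δ (P : FreyPackage) : (2 : ℤ) ∣ P.freyCurveInt.Δ := by
  have h4 := sixteen_mul_a₄ P
  obtain ⟨B', hB'⟩ := thirtytwo_dvd_b_pow P
  have ha₄ : (2 : ℤ) ∣ P.freyCurveInt.a₄ := by
    refine ⟨-(P.a ^ P.p) * B', ?_⟩
    have : 16 * P.freyCurveInt.a₄ = 16 * (2 * (-(P.a ^ P.p) * B')) := by
      rw [h4, hB']; ring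
    exact mul_left_cancel₀ (by norm_num : (16 : ℤ) ≠ 0) this
  rw [freyCurveInt_Δ]
  exact Dvd.dvd.mul_right (Dvd.dvd.pow ha₄ (by norm_num)) _

theorem not_mem_of_seventeen_le {p : ℕ} (hp17 : 17 ≤ p) : p ∉ ({2, 3, 5, 7, 13} : Finset ℕ) := by
  simp only [Finset.mem_insert, Finset.mem_singleton, not_or]
  omega

/-- **9d for the Frey curve: S15 forces the kernel `⟨t⟩` to be toric at every prime `ℓ ≠ p`.**
Suppliers: `hD0`, `hDQ` = VELU-Q; `h₁ … h₆` = the fields of `Model57.IsScaledModel W' V' ((p:ℚ̄)^k)` (9a-model);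
`hpt` = 9a-point; `hex` : `E[p] ≠ ⟨t⟩`. -/
theorem toric_of_S15 (hS15 : S15Statement) (P : FreyPackage) (hp17 : 17 ≤ P.p)
    {t : (P.freyCurve⁄Qb).Point} (ht : P.p • t = 0) (ht0 : t ≠ 0)
    (hDQ : (veluCurve (P.freyCurve⁄Qb) t P.p).Δ *
      Fermat.Agent.MAZ.ModInv.psiProd (P.freyCurve⁄Qb) t P.p = (P.freyCurve⁄Qb).Δ ^ P.p)
    {k : ℕ} {W' : WeierstrassCurve ℤ} (hΔ' : W'.Δ ≠ 0)
    (h₁ : ((W'.a₁ : ℤ) : Qb) = ((P.p : ℕ) : Qb) ^ k * (veluCurve (P.freyCurve⁄Qb) t P.p).a₁)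
    (h₂ : ((W'.a₂ : ℤ) : Qb) = (((P.p : ℕ) : Qb) ^ k) ^ 2 * (veluCurve (P.freyCurve⁄Qb) t P.p).a₂)
    (h₃ : ((W'.a₃ : ℤ) : Qb) = (((P.p : ℕ) : Qb) ^ k) ^ 3 * (veluCurve (P.freyCurve⁄Qb) t P.p).a₃)
    (h₄ : ((W'.a₄ : ℤ) : Qb) = (((P.p : ℕ) : Qb) ^ k) ^ 4 * (veluCurve (P.freyCurve⁄Qb) t P.p).a₄)
    (h₆ : ((W'.a₆ : ℤ) : Qb) = (((P.p : ℕ) : Qb) ^ k) ^ 6 * (veluCurve (P.freyCurve⁄Qb) t P.p).a₆)
    (hpt : ∀ R : (P.freyCurve⁄Qb).Point, P.p • R = 0 → R ∉ AddSubgroup.zmultiples t →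
      ∃ hns : ((W'.map (Int.castRingHom ℚ))⁄Qb).Nonsingular
          ((((P.p : ℕ) : Qb) ^ k) ^ 2 * veluX (P.freyCurve⁄Qb) t P.p R)
          ((((P.p : ℕ) : Qb) ^ k) ^ 3 * veluY (P.freyCurve⁄Qb) t P.p R),
        addOrderOf (Point.some _ _ hns) = P.p ∧
          ∀ σ : GQ, σ • Point.some _ _ hns = Point.some _ _ hns)
    (hex : ∃ R : (P.freyCurve⁄Qb).Point, P.p • R = 0 ∧ R ∉ AddSubgroup.zmultiples t)
    {ℓ : ℕ} (hℓ : ℓ.Prime) (hne : ℓ ≠ P.p) (A : ValuationSubring Qb) (hA : A.LiesOverPrime ℓ) :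
    InZero P.freyCurveInt A t :=
  toric_of_S15_gen P.freyCurveInt W' (freyCurveInt_Δ_ne_zero P) hΔ'
    (freyCurveInt_isSemistableModel P) P.pp (not_mem_of_seventeen_le hp17)
    (Fermat.Agent.S12P.LocUnit28.freyCurve_baseChange_eq_map P) ht ht0 hDQ h₁ h₂ h₃ h₄ h₆ hpt hex
    hS15 (two_dvd_freyCurveInt_Δ P) hℓ hne A hA

/-- `3 ∣ abc`-form: `3 ∣ Δ(freyCurveInt)` under the same hypotheses (no S15 needed). -/
theorem frey_three_dvd_Δ (P : FreyPackage) (hp17 : 17 ≤ P.p)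
    {t : (P.freyCurve⁄Qb).Point} (ht : P.p • t = 0) (ht0 : t ≠ 0)
    (hDQ : (veluCurve (P.freyCurve⁄Qb) t P.p).Δ *
      Fermat.Agent.MAZ.ModInv.psiProd (P.freyCurve⁄Qb) t P.p = (P.freyCurve⁄Qb).Δ ^ P.p)
    {k : ℕ} {W' : WeierstrassCurve ℤ}
    (h₁ : ((W'.a₁ : ℤ) : Qb) = ((P.p : ℕ) : Qb) ^ k * (veluCurve (P.freyCurve⁄Qb) t P.p).a₁)
    (h₂ : ((W'.a₂ : ℤ) : Qb) = (((P.p : ℕ) : Qb) ^ k) ^ 2 * (veluCurve (P.freyCurve⁄Qb) t P.p).a₂)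
    (h₃ : ((W'.a₃ : ℤ) : Qb) = (((P.p : ℕ) : Qb) ^ k) ^ 3 * (veluCurve (P.freyCurve⁄Qb) t P.p).a₃)
    (h₄ : ((W'.a₄ : ℤ) : Qb) = (((P.p : ℕ) : Qb) ^ k) ^ 4 * (veluCurve (P.freyCurve⁄Qb) t P.p).a₄)
    (h₆ : ((W'.a₆ : ℤ) : Qb) = (((P.p : ℕ) : Qb) ^ k) ^ 6 * (veluCurve (P.freyCurve⁄Qb) t P.p).a₆)
    (hpt : ∀ R : (P.freyCurve⁄Qb).Point, P.p • R = 0 → R ∉ AddSubgroup.zmultiples t →
      ∃ hns : ((W'.map (Int.castRingHom ℚ))⁄Qb).Nonsingular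
          ((((P.p : ℕ) : Qb) ^ k) ^ 2 * veluX (P.freyCurve⁄Qb) t P.p R)
          ((((P.p : ℕ) : Qb) ^ k) ^ 3 * veluY (P.freyCurve⁄Qb) t P.p R),
        addOrderOf (Point.some _ _ hns) = P.p ∧
          ∀ σ : GQ, σ • Point.some _ _ hns = Point.some _ _ hns)
    (hex : ∃ R : (P.freyCurve⁄Qb).Point, P.p • R = 0 ∧ R ∉ AddSubgroup.zmultiples t) :
    (3 : ℤ) ∣ P.freyCurveInt.Δ :=
  three_dvd_Δ_of_fixed P.freyCurveInt W' P.pp (not_mem_of_seventeen_le hp17)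
    (Fermat.Agent.S12P.LocUnit28.freyCurve_baseChange_eq_map P) ht ht0 hDQ h₁ h₂ h₃ h₄ h₆ hpt hex

end Frey

end Fermat.Agent.S12P.Toric44
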