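/-
S12 programme, brick 757 TORIC part 9c (helper44), file 3: congruent integral models have the same
reduction.

`W, W'` integral Weierstrass curves, `A` a valuation subring of a field `L`, `u ∈ L` a unit of `A`.
`CongScaled W W' A u` : `a_i(W') ≡ u^i a_i(W)` modulo the maximal ideal of `A` (`i = 1, 2, 3, 4, 6`), i.e.
`W'` reduces to the `u`-scaling of the reduction of `W`.  Then

* `CongScaled.val_Δ_lt_one`, `CongScaled.val_c₄_eq_one` : `Δ(W') ≡ u¹² Δ(W)`, `c₄(W') ≡ u⁴ c₄(W)`, so `W'` has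
  multiplicative reduction at `A` as soon as `W` has; `dvd_Δ`, `not_dvd_c₄` : the same as divisibility by
  the residue characteristic `ℓ`;
* `CongScaled.inZero` : if `(x, y) ∈ W(L)` is integral with nonsingular reduction and `(x', y') ∈ W'(L)`
  satisfies `x' ≡ u² x`, `y' ≡ u³ y`, then `(x', y')` lies in the zero component of `W'` at `A`.
-/
import Mathlib
import Fermat.Agent.MAZ.Loc44.Main

set_option autoImplicit false
set_option linter.unusedSectionVars false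

open WeierstrassCurve WeierstrassCurve.Affine

namespace Fermat.Agent.S12P.Toric44

open Fermat.Agent.InertiaMult Fermat.Agent.S05.Inertia Fermat.Agent.S05.Kernel
open Fermat.Agent.ES.EC.CongE1_20 Fermat.Agent.ES.EC Fermat.Agent.MAZ.Loc44

variable {L : Type*} [Field L] [DecidableEq L]

/-- `W'` is congruent to the `u`-scaling of `W` modulo the maximal ideal of `A`. -/
structure CongScaled (W W' : WeierstrassCurve ℤ) (A : ValuationSubring L) (u : L) : Prop where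
  hu : A.valuation u = 1
  a₁ : A.valuation (((W'.a₁ : ℤ) : L) - u * ((W.a₁ : ℤ) : L)) < 1
  a₂ : A.valuation (((W'.a₂ : ℤ) : L) - u ^ 2 * ((W.a₂ : ℤ) : L)) < 1
  a₃ : A.valuation (((W'.a₃ : ℤ) : L) - u ^ 3 * ((W.a₃ : ℤ) : L)) < 1
  a₄ : A.valuation (((W'.a₄ : ℤ) : L) - u ^ 4 * ((W.a₄ : ℤ) : L)) < 1
  a₆ : A.valuation (((W'.a₆ : ℤ) : L) - u ^ 6 * ((W.a₆ : ℤ) : L)) < 1

namespace CongScaled

variable {W W' : WeierstrassCurve ℤ} {A : ValuationSubring L}
  [DecidableEq (IsLocalRing.ResidueField A)] {u : L}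

/-- exact scaling gives a congruence. -/
theorem of_eq (hu : A.valuation u = 1)
    (h₁ : ((W'.a₁ : ℤ) : L) = u * ((W.a₁ : ℤ) : L))
    (h₂ : ((W'.a₂ : ℤ) : L) = u ^ 2 * ((W.a₂ : ℤ) : L))
    (h₃ : ((W'.a₃ : ℤ) : L) = u ^ 3 * ((W.a₃ : ℤ) : L))
    (h₄ : ((W'.a₄ : ℤ) : L) = u ^ 4 * ((W.a₄ : ℤ) : L))
    (h₆ : ((W'.a₆ : ℤ) : L) = u ^ 6 * ((W.a₆ : ℤ) : L)) : CongScaled W W' A u := by
  refine ⟨hu, ?_, ?_, ?_, ?_, ?_⟩ <;>
  · simp only [h₁, h₂, h₃, h₄, h₆, sub_self, map_zero]; exact zero_lt_one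

variable (hc : CongScaled W W' A u)
include hc

theorem u_mem : u ∈ A := (A.valuation_le_one_iff u).mp hc.hu.le

/-- the residue of `u`. -/
noncomputable def ubar : IsLocalRing.ResidueField A := IsLocalRing.residue A ⟨u, hc.u_mem⟩

theorem ubar_ne_zero : hc.ubar ≠ 0 := by
  have hunit : IsUnit (⟨u, hc.u_mem⟩ : A) :=
    (ValuationSubring.valuation_eq_one_iff A ⟨u, hc.u_mem⟩).mpr hc.hu
  exact (IsLocalRing.residue_ne_zero_iff_isUnit _).mpr hunit

private theorem res_coeff {n n' : ℤ} {i : ℕ}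
    (h : A.valuation ((n' : L) - u ^ i * (n : L)) < 1) :
    ((n' : ℤ) : IsLocalRing.ResidueField A) = hc.ubar ^ i * ((n : ℤ) : IsLocalRing.ResidueField A) := by
  have h1 : IsLocalRing.residue A ((n' : ℤ) : A) =
      IsLocalRing.residue A ((⟨u, hc.u_mem⟩ : A) ^ i * ((n : ℤ) : A)) := by
    rw [res_eq_iff]
    push_cast
    exact h
  rw [map_intCast, map_mul, map_pow, map_intCast] at h1
  exact h1

theorem res_a₁ : ((W'.a₁ : ℤ) : IsLocalRing.ResidueField A) =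
    hc.ubar * ((W.a₁ : ℤ) : IsLocalRing.ResidueField A) := by
  have := hc.res_coeff (i := 1) (by rw [pow_one]; exact hc.a₁)
  rwa [pow_one] at this

theorem res_a₂ : ((W'.a₂ : ℤ) : IsLocalRing.ResidueField A) =
    hc.ubar ^ 2 * ((W.a₂ : ℤ) : IsLocalRing.ResidueField A) := hc.res_coeff hc.a₂

theorem res_a₃ : ((W'.a₃ : ℤ) : IsLocalRing.ResidueField A) =
    hc.ubar ^ 3 * ((W.a₃ : ℤ) : IsLocalRing.ResidueField A) := hc.res_coeff hc.a₃

theorem res_a₄ : ((W'.a₄ : ℤ) : IsLocalRing.ResidueField A) =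
    hc.ubar ^ 4 * ((W.a₄ : ℤ) : IsLocalRing.ResidueField A) := hc.res_coeff hc.a₄

theorem res_a₆ : ((W'.a₆ : ℤ) : IsLocalRing.ResidueField A) =
    hc.ubar ^ 6 * ((W.a₆ : ℤ) : IsLocalRing.ResidueField A) := hc.res_coeff hc.a₆

/-- `Δ(W') ≡ u¹² Δ(W)`. -/
theorem res_Δ : ((W'.Δ : ℤ) : IsLocalRing.ResidueField A) =
    hc.ubar ^ 12 * ((W.Δ : ℤ) : IsLocalRing.ResidueField A) := by
  have e1 := hc.res_a₁
  have e2 := hc.res_a₂
  have e3 := hc.res_a₃
  have e4 := hc.res_a₄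
  have e6 := hc.res_a₆
  simp only [WeierstrassCurve.Δ, WeierstrassCurve.b₂, WeierstrassCurve.b₄, WeierstrassCurve.b₆,
    WeierstrassCurve.b₈]
  push_cast
  rw [e1, e2, e3, e4, e6]
  ring

/-- `c₄(W') ≡ u⁴ c₄(W)`. -/
theorem res_c₄ : ((W'.c₄ : ℤ) : IsLocalRing.ResidueField A) =
    hc.ubar ^ 4 * ((W.c₄ : ℤ) : IsLocalRing.ResidueField A) := by
  have e1 := hc.res_a₁
  have e2 := hc.res_a₂
  have e3 := hc.res_a₃
  have e4 := hc.res_a₄
  simp only [WeierstrassCurve.c₄, WeierstrassCurve.b₂, WeierstrassCurve.b₄]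
  push_cast
  rw [e1, e2, e3, e4]
  ring

omit hc in
private theorem val_intCast_lt_one_iff (n : ℤ) :
    A.valuation ((n : ℤ) : L) < 1 ↔ ((n : ℤ) : IsLocalRing.ResidueField A) = 0 := by
  have h := res_eq_iff ((n : ℤ) : A) (0 : A)
  rw [map_zero, map_intCast] at h
  rw [h]
  push_cast
  rw [sub_zero]

/-- `v(Δ(W)) < 1 ⟹ v(Δ(W')) < 1`. -/
theorem val_Δ_lt_one (h : A.valuation ((W.Δ : ℤ) : L) < 1) : A.valuation ((W'.Δ : ℤ) : L) < 1 := by
  rw [val_intCast_lt_one_iff] at h ⊢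
  rw [hc.res_Δ, h, mul_zero]

/-- `v(c₄(W)) = 1 ⟹ v(c₄(W')) = 1`. -/
theorem val_c₄_eq_one (h : A.valuation ((W.c₄ : ℤ) : L) = 1) :
    A.valuation ((W'.c₄ : ℤ) : L) = 1 := by
  refine le_antisymm (valuation_intCast_le_one _) (not_lt.mp fun hlt => ?_)
  rw [val_intCast_lt_one_iff, hc.res_c₄] at hlt
  rcases mul_eq_zero.mp hlt with h0 | h0
  · exact hc.ubar_ne_zero (pow_eq_zero_iff (by norm_num) |>.mp h0)
  · have : A.valuation ((W.c₄ : ℤ) : L) < 1 := (val_intCast_lt_one_iff _).mpr h0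
    rw [h] at this
    exact lt_irrefl _ this

/-- `ℓ ∣ Δ(W) ⟹ ℓ ∣ Δ(W')` for `A` over `ℓ`. -/
theorem dvd_Δ {ℓ : ℕ} (hℓ : ℓ.Prime) (hA : A.LiesOverPrime ℓ) (h : (ℓ : ℤ) ∣ W.Δ) :
    (ℓ : ℤ) ∣ W'.Δ :=
  (valuation_intCast_lt_one_iff hℓ hA _).mp
    (hc.val_Δ_lt_one ((valuation_intCast_lt_one_iff hℓ hA _).mpr h))

/-- `ℓ ∤ c₄(W) ⟹ ℓ ∤ c₄(W')` for `A` over `ℓ`. -/
theorem not_dvd_c₄ {ℓ : ℕ} (hℓ : ℓ.Prime) (hA : A.LiesOverPrime ℓ) (h : ¬ (ℓ : ℤ) ∣ W.c₄) :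
    ¬ (ℓ : ℤ) ∣ W'.c₄ := by
  intro hd
  have h1 := hc.val_c₄_eq_one (valuation_intCast_eq_one hℓ hA h)
  have h2 := (valuation_intCast_lt_one_iff hℓ hA _).mpr hd
  rw [h1] at h2
  exact lt_irrefl _ h2

/-- **Transfer of the zero component**: a point of `W'` congruent to the `u`-scaling of an integral
point of `W` with nonsingular reduction lies in the zero component of `W'`. -/
theorem inZero {x y x' y' : L} (hx : x ∈ A) (hy : y ∈ A)
    (hns : (W.map (Int.castRingHom (IsLocalRing.ResidueField A))).toAffine.Nonsingular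
      (IsLocalRing.residue A ⟨x, hx⟩) (IsLocalRing.residue A ⟨y, hy⟩))
    {VL' : Affine L} (hVL' : VL' = (W'.map (Int.castRingHom L)).toAffine)
    (h' : VL'.Nonsingular x' y')
    (hxc : A.valuation (x' - u ^ 2 * x) < 1) (hyc : A.valuation (y' - u ^ 3 * y) < 1) :
    InZero W' A (Point.some x' y' h') := by
  subst hVL'
  have hu2x : u ^ 2 * x ∈ A := A.mul_mem _ _ (A.pow_mem hc.u_mem 2) hx
  have hu3y : u ^ 3 * y ∈ A := A.mul_mem _ _ (A.pow_mem hc.u_mem 3) hy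
  have hx' : x' ∈ A := by
    have h1 : x' - u ^ 2 * x ∈ A := (A.valuation_le_one_iff _).mp hxc.le
    have := A.add_mem _ _ h1 hu2x
    rwa [sub_add_cancel] at this
  have hy' : y' ∈ A := by
    have h1 : y' - u ^ 3 * y ∈ A := (A.valuation_le_one_iff _).mp hyc.le
    have := A.add_mem _ _ h1 hu3y
    rwa [sub_add_cancel] at this
  refine Or.inr ⟨x', y', h', rfl, Or.inr ⟨hx', hy', ?_⟩⟩
  set xb := IsLocalRing.residue A ⟨x, hx⟩ with hxb
  set yb := IsLocalRing.residue A ⟨y, hy⟩ with hyb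
  have hrx : IsLocalRing.residue A ⟨x', hx'⟩ = hc.ubar ^ 2 * xb := by
    have h1 : IsLocalRing.residue A ⟨x', hx'⟩ =
        IsLocalRing.residue A ((⟨u, hc.u_mem⟩ : A) ^ 2 * ⟨x, hx⟩) := by
      rw [res_eq_iff]
      push_cast
      exact hxc
    rw [h1, map_mul, map_pow]
    rfl
  have hry : IsLocalRing.residue A ⟨y', hy'⟩ = hc.ubar ^ 3 * yb := by
    have h1 : IsLocalRing.residue A ⟨y', hy'⟩ =
        IsLocalRing.residue A ((⟨u, hc.u_mem⟩ : A) ^ 3 * ⟨y, hy⟩) := by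
      rw [res_eq_iff]
      push_cast
      exact hyc
    rw [h1, map_mul, map_pow]
    rfl
  have hEq' := equation_residue A W' ⟨x', hx'⟩ ⟨y', hy'⟩ h'.1
  rw [nonsingular_iff] at hns ⊢
  refine ⟨hEq', ?_⟩
  rw [hrx, hry]
  simp only [WeierstrassCurve.map_a₁, WeierstrassCurve.map_a₂, WeierstrassCurve.map_a₃,
    WeierstrassCurve.map_a₄, eq_intCast] at hns ⊢
  rw [hc.res_a₁, hc.res_a₂, hc.res_a₃, hc.res_a₄]
  have hub := hc.ubar_ne_zero
  rcases hns.2 with h1 | h2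
  · left
    intro heq
    apply h1
    have h4 : hc.ubar ^ 4 * ((W.a₁ : IsLocalRing.ResidueField A) * yb -
        (3 * xb ^ 2 + 2 * (W.a₂ : IsLocalRing.ResidueField A) * xb +
          (W.a₄ : IsLocalRing.ResidueField A))) = 0 := by
      linear_combination heq
    rcases mul_eq_zero.mp h4 with h0 | h0
    · exact absurd (pow_eq_zero_iff (by norm_num) |>.mp h0) hub
    · exact sub_eq_zero.mp h0
  · right
    intro heq
    apply h2
    have h3 : hc.ubar ^ 3 * (yb - (-yb - (W.a₁ : IsLocalRing.ResidueField A) * xb -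
        (W.a₃ : IsLocalRing.ResidueField A))) = 0 := by
      linear_combination heq
    rcases mul_eq_zero.mp h3 with h0 | h0
    · exact absurd (pow_eq_zero_iff (by norm_num) |>.mp h0) hub
    · exact sub_eq_zero.mp h0

end CongScaled

end Fermat.Agent.S12P.Toric44
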