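/-
S12 programme, brick 757 TORIC part 9c (helper44), file 2: `E⁰[p] ≠ 0` at a prime of multiplicative
reduction.

`W` an integral Weierstrass curve with `Δ ≠ 0`, `ℓ ∣ Δ`, `ℓ ∤ c₄`, `A` a valuation subring of `ℚ̄` over `ℓ`,
`p ≠ ℓ` a prime.  The nonsingular locus of the nodal fibre over the (algebraically closed) residue field
has at least `p` points killed by `p` (`ES/Q58/NodeCount15`), and every such point lifts to a point of
`W(ℚ̄)[p]` with integral coordinates (`InertiaMult/Lift`).  Hence: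

* `exists_inZero_torsion` : (iii) there is `R₀ ∈ W(ℚ̄)`, `R₀ ≠ 0`, `p • R₀ = 0`, `W.InZeroComponentAt A R₀`
  (with integral coordinates and nonsingular reduction).
-/
import Mathlib
import Fermat.Agent.InertiaMult.Main
import Fermat.Agent.MAZ.Loc44.Main

set_option autoImplicit false
set_option linter.unusedSectionVars false

open WeierstrassCurve WeierstrassCurve.Affine

namespace Fermat.Agent.S12P.Toric44

open Fermat.Agent.InertiaMult Fermat.Agent.ES.EC Fermat.Agent.ES.Q58 Fermat.Agent.MAZ.Loc44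

local notation "Qb" => AlgebraicClosure ℚ

/-- **(iii) `E⁰[p] ≠ 0` at a multiplicative prime `ℓ ≠ p`.** -/
theorem exists_inZero_torsion (W : WeierstrassCurve ℤ) (hΔ : W.Δ ≠ 0) {ℓ p : ℕ} (hℓ : ℓ.Prime)
    (hp : p.Prime) (hne : p ≠ ℓ) (hℓΔ : (ℓ : ℤ) ∣ W.Δ) (hℓc : ¬ (ℓ : ℤ) ∣ W.c₄)
    {A : ValuationSubring Qb} (hA : A.LiesOverPrime ℓ) :
    ∃ (x y : Qb) (h : ((W.map (Int.castRingHom ℚ))⁄Qb).Nonsingular x y) (hx : x ∈ A) (hy : y ∈ A),
      p • Point.some x y h = 0 ∧
      (W.map (Int.castRingHom (IsLocalRing.ResidueField A))).toAffine.Nonsingular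
        (IsLocalRing.residue A ⟨x, hx⟩) (IsLocalRing.residue A ⟨y, hy⟩) ∧
      W.InZeroComponentAt A (Point.some x y h) := by
  classical
  have : Fact ℓ.Prime := ⟨hℓ⟩
  let _ : Algebra (ZMod ℓ) (IsLocalRing.ResidueField A) :=
    (LiftTorsion29.primeEmb A hℓ hA).toAlgebra
  have : IsAlgClosed (IsLocalRing.ResidueField A) := isAlgClosed_residueField A
  obtain ⟨Sbar, hcard, hSbar⟩ :=
    NodeCount15.exists_torsion_node W hℓΔ hℓc hp hne 1 (IsLocalRing.ResidueField A)
  rw [pow_one] at hcard hSbar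
  -- a nonzero point of `Sbar`
  obtain ⟨Rbar, hRbar, hR0⟩ : ∃ Rbar ∈ Sbar, Rbar ≠ 0 := by
    have h2 : 1 < Sbar.card := lt_of_lt_of_le hp.one_lt hcard
    obtain ⟨a, ha, b, hb, hab⟩ := Finset.one_lt_card.mp h2
    by_cases ha0 : a = 0
    · exact ⟨b, hb, fun hb0 => hab (ha0.trans hb0.symm)⟩
    · exact ⟨a, ha, ha0⟩
  -- the reduced curve
  have hVk : ((W.reductionMod ℓ)⁄(IsLocalRing.ResidueField A)) =
      (W.map (Int.castRingHom (IsLocalRing.ResidueField A))).toAffine := by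
    change ((W.map (Int.castRingHom (ZMod ℓ))).map
      (algebraMap (ZMod ℓ) (IsLocalRing.ResidueField A))) = _
    rw [WeierstrassCurve.map_map]
    congr 1
    exact RingHom.ext_int _ _
  have hVL := TorsionLift20.baseChange_eq_map W
  have hk := hSbar Rbar hRbar
  rcases Rbar with _ | ⟨x', y', h'⟩
  · exact absurd rfl hR0
  obtain ⟨a, b, h, hR, hat, hbt⟩ :=
    exists_torsion_lift_residue A W hΔ hℓ hA hp.one_lt.le
      (fun hd => hne ((Nat.prime_dvd_prime_iff_eq hℓ hp).mp hd).symm) hVk hVL h' hk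
  have hns : (W.map (Int.castRingHom (IsLocalRing.ResidueField A))).toAffine.Nonsingular
      (IsLocalRing.residue A ⟨(a : Qb), a.2⟩) (IsLocalRing.residue A ⟨(b : Qb), b.2⟩) := by
    have h'' := h'
    rw [hVk] at h''
    rw [← hat, ← hbt] at h''
    exact h''
  exact ⟨a, b, h, a.2, b.2, hR, hns, Or.inr ⟨a, b, h, rfl, Or.inr ⟨a.2, b.2, hns⟩⟩⟩

end Fermat.Agent.S12P.Toric44
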