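/-
S12 programme, brick 757 TORIC part 9c (helper44), file 1: points outside the zero component reduce to
THE singular point.

`W` an integral Weierstrass curve, `A` a valuation subring of a field `L`, `V_L = W_L`.  `InZero W A R`
(`MAZ/Loc44`) is the general-field form of the Prelude's `WeierstrassCurve.InZeroComponentAt`.

* `singular_unique` : a Weierstrass cubic over a field has at most one singular point (all
  characteristics): `(x₂ - x₁)³ = 2 (F(P₂) - F(P₁)) + …`;
* `exists_of_not_inZero` : a point outside `E⁰` is `(x, y)` with `x, y ∈ A` and singular reduction;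
* `val_gx_lt_one`, `val_gy_lt_one` : (i) both partial derivatives `3x²+2a₂x+a₄-a₁y`, `2y+a₁x+a₃` lie in
  the maximal ideal at such a point (no torsion hypothesis);
* `val_sub_lt_one_of_not_inZero` : two points outside `E⁰` have congruent coordinates;
* `inZero_add`, `inZero_neg`, `not_inZero_add` : on odd torsion prime to the residue characteristic
  `E⁰` is a subgroup, hence `E⁰ + (E ∖ E⁰) ⊆ E ∖ E⁰`;
* `val_sum_xco_sub_lt_one`, `val_sum_yco_sub_lt_one` : (iv) for `R₀ ∈ E⁰[m]` and a finite set `S` of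
  `m`-torsion points outside `E⁰`: `∑_{t ∈ S} (x(R₀ + t) - x(t))` and `∑_{t ∈ S} (y(R₀ + t) - y(t))` lie in
  the maximal ideal (the Vélu corrections vanish mod `𝔪_A`).
-/
import Mathlib
import Fermat.Agent.MAZ.Loc44.Main
import Fermat.Agent.MAZ.EF86.ModInv

set_option autoImplicit false
set_option linter.unusedSectionVars false

open WeierstrassCurve WeierstrassCurve.Affine

namespace Fermat.Agent.S12P.Toric44

open Fermat.Agent.InertiaMult Fermat.Agent.S05.Inertia Fermat.Agent.S05.Kernel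
open Fermat.Agent.ES.EC.CongE1_20 Fermat.Agent.ES.EC Fermat.Agent.MAZ.Loc44
open Fermat.Agent.MAZ.ModInv (xco yco)

/-! ### A Weierstrass cubic has at most one singular point -/

section Field

variable {k : Type*} [Field k] {V : Affine k}

/-- Two singular points of a Weierstrass cubic over a field coincide (any characteristic). -/
theorem singular_unique {x₁ y₁ x₂ y₂ : k} (h₁ : V.Equation x₁ y₁) (h₂ : V.Equation x₂ y₂)
    (hs₁ : ¬ V.Nonsingular x₁ y₁) (hs₂ : ¬ V.Nonsingular x₂ y₂) : x₁ = x₂ ∧ y₁ = y₂ := by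
  rw [nonsingular_iff] at hs₁ hs₂
  have hx₁ : V.a₁ * y₁ = 3 * x₁ ^ 2 + 2 * V.a₂ * x₁ + V.a₄ := by
    by_contra h; exact hs₁ ⟨h₁, Or.inl h⟩
  have hy₁ : y₁ = -y₁ - V.a₁ * x₁ - V.a₃ := by
    by_contra h; exact hs₁ ⟨h₁, Or.inr h⟩
  have hx₂ : V.a₁ * y₂ = 3 * x₂ ^ 2 + 2 * V.a₂ * x₂ + V.a₄ := by
    by_contra h; exact hs₂ ⟨h₂, Or.inl h⟩
  have hy₂ : y₂ = -y₂ - V.a₁ * x₂ - V.a₃ := by
    by_contra h; exact hs₂ ⟨h₂, Or.inr h⟩
  rw [equation_iff] at h₁ h₂
  have hu : (x₂ - x₁) ^ 3 = 0 := by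
    linear_combination 2 * h₂ - 2 * h₁ - (x₂ - x₁) * hx₁ - (x₂ - x₁) * hx₂
      - (y₂ - y₁) * hy₁ - (y₂ - y₁) * hy₂
  have hxx : x₁ = x₂ := by
    have := pow_eq_zero_iff (n := 3) (by norm_num) |>.mp hu
    exact (sub_eq_zero.mp this).symm
  subst hxx
  refine ⟨rfl, ?_⟩
  have hw : (y₂ - y₁) ^ 2 = 0 := by
    linear_combination h₂ - h₁ - (y₂ - y₁) * hy₁
  have := pow_eq_zero_iff (n := 2) (by norm_num) |>.mp hw
  exact (sub_eq_zero.mp this).symm

end Field

/-! ### Points outside `E⁰` -/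

section General

variable {L : Type*} [Field L] [DecidableEq L] (W : WeierstrassCurve ℤ) {A : ValuationSubring L}
  [DecidableEq (IsLocalRing.ResidueField A)]

/-- A point outside `E⁰` has integral coordinates and singular reduction. -/
theorem exists_of_not_inZero {VL : Affine L} (hVL : VL = (W.map (Int.castRingHom L)).toAffine)
    {R : VL.Point} (hR : ¬ InZero W A R) :
    ∃ (x y : L) (h : VL.Nonsingular x y) (hx : x ∈ A) (hy : y ∈ A), R = Point.some x y h ∧
      ¬ (W.map (Int.castRingHom (IsLocalRing.ResidueField A))).toAffine.Nonsingular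
        (IsLocalRing.residue A ⟨x, hx⟩) (IsLocalRing.residue A ⟨y, hy⟩) := by
  subst hVL
  have hint : IntegralCoeffs A.valuation (W.map (Int.castRingHom L)).toAffine :=
    integralCoeffs_map W
  rcases R with _ | ⟨x, y, hns⟩
  · exact absurd (Or.inl rfl) hR
  have hxA : x ∈ A := by
    by_contra hx
    exact hR (Or.inr ⟨x, y, hns, rfl, Or.inl hx⟩)
  have hvx : A.valuation x ≤ 1 := (A.valuation_le_one_iff x).mpr hxA
  have hvy : A.valuation y ≤ 1 := by
    by_contra hy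
    exact absurd (vx_of_vy hint hns.1 (not_le.mp hy)) (not_lt.mpr hvx)
  have hyA : y ∈ A := (A.valuation_le_one_iff y).mp hvy
  exact ⟨x, y, hns, hxA, hyA, rfl, fun h' => hR (Or.inr ⟨x, y, hns, rfl, Or.inr ⟨hxA, hyA, h'⟩⟩)⟩

/-- the coordinates of a point outside `E⁰` are integral. -/
theorem xco_mem_of_not_inZero {R : (W.map (Int.castRingHom L)).toAffine.Point}
    (hR : ¬ InZero W A R) :
    xco (W.map (Int.castRingHom L)) R ∈ A ∧ yco (W.map (Int.castRingHom L)) R ∈ A := by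
  obtain ⟨x, y, h, hx, hy, rfl, -⟩ := exists_of_not_inZero W rfl hR
  exact ⟨hx, hy⟩

/-- (i) `∂F/∂x` lies in the maximal ideal at a point outside `E⁰`. -/
theorem val_gx_lt_one {x y : L} {h : (W.map (Int.castRingHom L)).toAffine.Nonsingular x y}
    (hR : ¬ InZero W A (Point.some x y h)) :
    A.valuation (3 * x ^ 2 + 2 * ((W.a₂ : ℤ) : L) * x + ((W.a₄ : ℤ) : L) - ((W.a₁ : ℤ) : L) * y) < 1 := by
  obtain ⟨x', y', h', hx, hy, he, hsing⟩ := exists_of_not_inZero W rfl hR
  rw [Point.some.injEq] at he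
  obtain ⟨rfl, rfl⟩ := he
  have hEqk := equation_residue A W ⟨x, hx⟩ ⟨y, hy⟩ h.1
  rw [nonsingular_iff] at hsing
  have h1 : (W.map (Int.castRingHom (IsLocalRing.ResidueField A))).toAffine.a₁ *
      IsLocalRing.residue A ⟨y, hy⟩ = 3 * IsLocalRing.residue A ⟨x, hx⟩ ^ 2 +
      2 * (W.map (Int.castRingHom (IsLocalRing.ResidueField A))).toAffine.a₂ *
        IsLocalRing.residue A ⟨x, hx⟩ +
      (W.map (Int.castRingHom (IsLocalRing.ResidueField A))).toAffine.a₄ := by
    by_contra hne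
    exact hsing ⟨hEqk, Or.inl hne⟩
  set u : A := 3 * ⟨x, hx⟩ ^ 2 + 2 * ((W.a₂ : ℤ) : A) * ⟨x, hx⟩ + ((W.a₄ : ℤ) : A)
    - ((W.a₁ : ℤ) : A) * ⟨y, hy⟩ with hu
  have hres : IsLocalRing.residue A u = IsLocalRing.residue A 0 := by
    rw [map_zero, hu]
    simp only [map_sub, map_add, map_mul, map_pow, map_intCast, map_ofNat]
    simp only [WeierstrassCurve.map_a₁, WeierstrassCurve.map_a₂, WeierstrassCurve.map_a₄,
      eq_intCast] at h1
    linear_combination -h1
  have hval := (res_eq_iff u 0).mp hres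
  have hcoe : (u : L) - ((0 : A) : L) =
      3 * x ^ 2 + 2 * ((W.a₂ : ℤ) : L) * x + ((W.a₄ : ℤ) : L) - ((W.a₁ : ℤ) : L) * y := by
    have e2 : ((2 : A) : L) = 2 := rfl
    have e3 : ((3 : A) : L) = 3 := rfl
    rw [hu]
    push_cast
    rw [e2, e3]
    ring
  rwa [hcoe] at hval

/-- (i) `∂F/∂y` lies in the maximal ideal at a point outside `E⁰`. -/
theorem val_gy_lt_one {x y : L} {h : (W.map (Int.castRingHom L)).toAffine.Nonsingular x y}
    (hR : ¬ InZero W A (Point.some x y h)) :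
    A.valuation (2 * y + ((W.a₁ : ℤ) : L) * x + ((W.a₃ : ℤ) : L)) < 1 := by
  obtain ⟨x', y', h', hx, hy, he, hsing⟩ := exists_of_not_inZero W rfl hR
  rw [Point.some.injEq] at he
  obtain ⟨rfl, rfl⟩ := he
  have hEqk := equation_residue A W ⟨x, hx⟩ ⟨y, hy⟩ h.1
  rw [nonsingular_iff] at hsing
  have h2 : IsLocalRing.residue A ⟨y, hy⟩ =
      -IsLocalRing.residue A ⟨y, hy⟩ -
        (W.map (Int.castRingHom (IsLocalRing.ResidueField A))).toAffine.a₁ *
          IsLocalRing.residue A ⟨x, hx⟩ -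
        (W.map (Int.castRingHom (IsLocalRing.ResidueField A))).toAffine.a₃ := by
    by_contra hne
    exact hsing ⟨hEqk, Or.inr hne⟩
  set u : A := 2 * ⟨y, hy⟩ + ((W.a₁ : ℤ) : A) * ⟨x, hx⟩ + ((W.a₃ : ℤ) : A) with hu
  have hres : IsLocalRing.residue A u = IsLocalRing.residue A 0 := by
    rw [map_zero, hu]
    simp only [map_add, map_mul, map_intCast, map_ofNat]
    simp only [WeierstrassCurve.map_a₁, WeierstrassCurve.map_a₃, eq_intCast] at h2
    linear_combination h2
  have hval := (res_eq_iff u 0).mp hres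
  have hcoe : (u : L) - ((0 : A) : L) = 2 * y + ((W.a₁ : ℤ) : L) * x + ((W.a₃ : ℤ) : L) := by
    have e2 : ((2 : A) : L) = 2 := rfl
    rw [hu]
    push_cast
    rw [e2]
    ring
  rwa [hcoe] at hval

/-- Two points outside `E⁰` have congruent coordinates: both reduce to THE singular point. -/
theorem val_sub_lt_one_of_not_inZero
    {R₁ R₂ : (W.map (Int.castRingHom L)).toAffine.Point}
    (h₁ : ¬ InZero W A R₁) (h₂ : ¬ InZero W A R₂) :
    A.valuation (xco (W.map (Int.castRingHom L)) R₁ - xco (W.map (Int.castRingHom L)) R₂) < 1 ∧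
      A.valuation (yco (W.map (Int.castRingHom L)) R₁ - yco (W.map (Int.castRingHom L)) R₂) < 1 := by
  obtain ⟨x₁, y₁, hns₁, hx₁, hy₁, rfl, hs₁⟩ := exists_of_not_inZero W rfl h₁
  obtain ⟨x₂, y₂, hns₂, hx₂, hy₂, rfl, hs₂⟩ := exists_of_not_inZero W rfl h₂
  have hE₁ := equation_residue A W ⟨x₁, hx₁⟩ ⟨y₁, hy₁⟩ hns₁.1
  have hE₂ := equation_residue A W ⟨x₂, hx₂⟩ ⟨y₂, hy₂⟩ hns₂.1
  obtain ⟨hx, hy⟩ := singular_unique hE₁ hE₂ hs₁ hs₂
  exact ⟨(res_eq_iff ⟨x₁, hx₁⟩ ⟨x₂, hx₂⟩).mp hx, (res_eq_iff ⟨y₁, hy₁⟩ ⟨y₂, hy₂⟩).mp hy⟩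

end General

/-! ### `E⁰` is a subgroup on odd torsion prime to the residue characteristic -/

section Group

variable {L : Type*} [Field L] [DecidableEq L] (W : WeierstrassCurve ℤ) {A : ValuationSubring L}
  [DecidableEq (IsLocalRing.ResidueField A)]
  {m : ℕ} (hm : Odd m) (hvm : A.valuation ((m : ℕ) : L) = 1)
  {VL : Affine L} (hVL : VL = (W.map (Int.castRingHom L)).toAffine)

include hm hvm hVL in
theorem inZero_add {R₁ R₂ : VL.Point} (hR₁ : m • R₁ = 0) (hR₂ : m • R₂ = 0)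
    (h₁ : InZero W A R₁) (h₂ : InZero W A R₂) : InZero W A (R₁ + R₂) := by
  have h12 : m • (R₁ + R₂) = 0 := by rw [smul_add, hR₁, hR₂, add_zero]
  rw [inZero_iff_exists_redTo W hvm hVL h12]
  obtain ⟨S₁, hS₁⟩ := (inZero_iff_exists_redTo W hvm hVL hR₁).mp h₁
  obtain ⟨S₂, hS₂⟩ := (inZero_iff_exists_redTo W hvm hVL hR₂).mp h₂
  exact ⟨S₁ + S₂, redTo_add W hm hvm hVL rfl hR₁ hR₂ hS₁ hS₂⟩

include hm hvm hVL in
theorem inZero_neg {R : VL.Point} (hR : m • R = 0) (h : InZero W A R) : InZero W A (-R) := by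
  have hn : m • (-R) = 0 := by rw [smul_neg, hR, neg_zero]
  rw [inZero_iff_exists_redTo W hvm hVL hn]
  obtain ⟨S, hS⟩ := (inZero_iff_exists_redTo W hvm hVL hR).mp h
  exact ⟨-S, redTo_neg W hVL rfl hS⟩

include hm hvm hVL in
/-- `E⁰ + (E ∖ E⁰) ⊆ E ∖ E⁰`. -/
theorem not_inZero_add {R T : VL.Point} (hR : m • R = 0) (hT : m • T = 0)
    (h : InZero W A R) (hTn : ¬ InZero W A T) : ¬ InZero W A (R + T) := by
  intro hsum
  apply hTn
  have hRT : m • (R + T) = 0 := by rw [smul_add, hR, hT, add_zero]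
  have hnR : m • (-R) = 0 := by rw [smul_neg, hR, neg_zero]
  have := inZero_add W hm hvm hVL hRT hnR hsum (inZero_neg W hm hvm hVL hR h)
  rwa [add_comm R T, add_neg_cancel_right] at this

end Group

/-! ### The Vélu corrections vanish modulo the maximal ideal -/

section Sum

variable {L : Type*} [Field L] [DecidableEq L] (W : WeierstrassCurve ℤ) {A : ValuationSubring L}
  [DecidableEq (IsLocalRing.ResidueField A)]
  {m : ℕ} (hm : Odd m) (hvm : A.valuation ((m : ℕ) : L) = 1)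

theorem val_finset_sum_lt_one {ι : Type*} (S : Finset ι) (f : ι → L)
    (hf : ∀ i ∈ S, A.valuation (f i) < 1) : A.valuation (∑ i ∈ S, f i) < 1 := by
  classical
  induction S using Finset.induction_on with
  | empty => rw [Finset.sum_empty, map_zero]; exact zero_lt_one
  | insert a S ha ih =>
    rw [Finset.sum_insert ha]
    exact Valuation.map_add_lt _ (hf a (Finset.mem_insert_self a S))
      (ih fun i hi => hf i (Finset.mem_insert_of_mem hi))

include hm hvm in
/-- (iv), `x`-coordinates. -/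
theorem val_sum_xco_sub_lt_one {R₀ : (W.map (Int.castRingHom L)).toAffine.Point}
    (hR₀ : m • R₀ = 0) (h₀ : InZero W A R₀)
    (S : Finset (W.map (Int.castRingHom L)).toAffine.Point)
    (hS : ∀ t ∈ S, m • t = 0 ∧ ¬ InZero W A t) :
    A.valuation (∑ t ∈ S, (xco (W.map (Int.castRingHom L)) (R₀ + t)
      - xco (W.map (Int.castRingHom L)) t)) < 1 := by
  refine val_finset_sum_lt_one S _ fun t ht => ?_
  obtain ⟨ht0, htn⟩ := hS t ht
  exact (val_sub_lt_one_of_not_inZero W (not_inZero_add W hm hvm rfl hR₀ ht0 h₀ htn) htn).1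

include hm hvm in
/-- (iv), `y`-coordinates. -/
theorem val_sum_yco_sub_lt_one {R₀ : (W.map (Int.castRingHom L)).toAffine.Point}
    (hR₀ : m • R₀ = 0) (h₀ : InZero W A R₀)
    (S : Finset (W.map (Int.castRingHom L)).toAffine.Point)
    (hS : ∀ t ∈ S, m • t = 0 ∧ ¬ InZero W A t) :
    A.valuation (∑ t ∈ S, (yco (W.map (Int.castRingHom L)) (R₀ + t)
      - yco (W.map (Int.castRingHom L)) t)) < 1 := by
  refine val_finset_sum_lt_one S _ fun t ht => ?_
  obtain ⟨ht0, htn⟩ := hS t ht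
  exact (val_sub_lt_one_of_not_inZero W (not_inZero_add W hm hvm rfl hR₀ ht0 h₀ htn) htn).2

end Sum

end Fermat.Agent.S12P.Toric44
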