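/-
S12 programme, brick 757 TORIC part 9c (helper44), file 4: the NON-TORIC congruences for Vélu's formulas
(vocabulary `S12P/VeluDef51`: `gx`, `veluT`, `veluW`, `veluCurve`, `veluX`, `veluY`).

`W` an integral Weierstrass curve, `A` a valuation subring of a field `L`, `V_L = W_L`, `p` an odd prime
which is a unit of `A`, `t ∈ V_L[p]`, `t ≠ 0`, `t ∉ E⁰` at `A` (the kernel `⟨t⟩` is NOT toric).  Then

* `not_inZero_nsmul` : no `k • t`, `0 < k < p`, lies in `E⁰`;
* `val_veluT_lt_one`, `val_veluW_lt_one` : (a) Vélu's `t` and `w` lie in the maximal ideal, hence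
  `val_veluCurve_a₄_sub_lt_one`, `val_veluCurve_a₆_sub_lt_one` : the Vélu curve is congruent to `V_L`;
* for `R ∈ E⁰[p]`, `R ≠ 0` : (b) `val_veluX_sub_lt_one`, `val_veluY_sub_lt_one` (`veluX R ≡ x(R)`,
  `veluY R ≡ y(R)`), `veluX_mem`, `veluY_mem` (integrality) and `val_velu_partial_eq_one` : one of the
  two partial derivatives of the Vélu curve at `(veluX R, veluY R)` is a unit of `A`;
* `not_mem_zmultiples` : (c) a nonzero point of `E⁰[p]` is not a multiple of `t`.
-/
import Mathlib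
import Fermat.Agent.S12P.Toric44.Node
import Fermat.Agent.S12P.VeluDef51.Defs

set_option autoImplicit false
set_option linter.unusedSectionVars false

open WeierstrassCurve WeierstrassCurve.Affine

namespace Fermat.Agent.S12P.Toric44

open Fermat.Agent.InertiaMult Fermat.Agent.S05.Inertia Fermat.Agent.S05.Kernel
open Fermat.Agent.ES.EC.CongE1_20 Fermat.Agent.ES.EC Fermat.Agent.MAZ.Loc44
open Fermat.Agent.MAZ.ModInv (xco yco)
open Fermat.Agent.S12P.VeluDef51

/-! ### valuation helpers -/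

section Val

variable {L : Type*} [Field L] {A : ValuationSubring L}

theorem val_eq_one_of_sub_lt_one {a b : L} (ha : A.valuation a = 1)
    (h : A.valuation (b - a) < 1) : A.valuation b = 1 := by
  have hb : b = a + (b - a) := by ring
  rw [hb, Valuation.map_add_eq_of_lt_left _ (by rw [ha]; exact h), ha]

theorem val_mul_lt_one_left {a b : L} (ha : A.valuation a < 1) (hb : A.valuation b ≤ 1) :
    A.valuation (a * b) < 1 := by
  rw [map_mul]
  exact mul_lt_one_of_nonneg_of_lt_one_left zero_le ha hb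

theorem val_mul_lt_one_right {a b : L} (ha : A.valuation a ≤ 1) (hb : A.valuation b < 1) :
    A.valuation (a * b) < 1 := by
  rw [mul_comm]
  exact val_mul_lt_one_left hb ha

end Val

/-! ### a unit partial derivative at an integral point of `E⁰` -/

section Unit

variable {L : Type*} [Field L] [DecidableEq L] (W : WeierstrassCurve ℤ) {A : ValuationSubring L}
  [DecidableEq (IsLocalRing.ResidueField A)]

/-- At an integral point of `E⁰` one of the two partial derivatives is a unit. -/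
theorem val_gx_or_gy_eq_one {x y : L} {h : (W.map (Int.castRingHom L)).toAffine.Nonsingular x y}
    (hx : x ∈ A) (hR : InZero W A (Point.some x y h)) :
    A.valuation (3 * x ^ 2 + 2 * ((W.a₂ : ℤ) : L) * x + ((W.a₄ : ℤ) : L) - ((W.a₁ : ℤ) : L) * y) = 1 ∨
      A.valuation (2 * y + ((W.a₁ : ℤ) : L) * x + ((W.a₃ : ℤ) : L)) = 1 := by
  rcases hR with h0 | ⟨x', y', h', he, hcase⟩
  · exact absurd h0 (Point.some_ne_zero h)
  rw [Point.some.injEq] at he
  obtain ⟨rfl, rfl⟩ := he
  rcases hcase with hxn | ⟨hx', hy, hns⟩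
  · exact absurd hx hxn
  rw [nonsingular_iff] at hns
  have e2 : ((2 : A) : L) = 2 := rfl
  have e3 : ((3 : A) : L) = 3 := rfl
  simp only [WeierstrassCurve.map_a₁, WeierstrassCurve.map_a₂, WeierstrassCurve.map_a₃,
    WeierstrassCurve.map_a₄, eq_intCast] at hns
  rcases hns.2 with h1 | h2
  · left
    set u : A := 3 * ⟨x, hx'⟩ ^ 2 + 2 * ((W.a₂ : ℤ) : A) * ⟨x, hx'⟩ + ((W.a₄ : ℤ) : A)
      - ((W.a₁ : ℤ) : A) * ⟨y, hy⟩ with hu
    have hres : IsLocalRing.residue A u ≠ 0 := by
      rw [hu]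
      simp only [map_sub, map_add, map_mul, map_pow, map_intCast, map_ofNat]
      intro h0
      apply h1
      linear_combination -h0
    have hunit : IsUnit u := (IsLocalRing.residue_ne_zero_iff_isUnit u).mp hres
    have hval := (ValuationSubring.valuation_eq_one_iff A u).mp hunit
    have hcoe : (u : L) =
        3 * x ^ 2 + 2 * ((W.a₂ : ℤ) : L) * x + ((W.a₄ : ℤ) : L) - ((W.a₁ : ℤ) : L) * y := by
      rw [hu]
      push_cast
      rw [e2, e3]
    rwa [hcoe] at hval
  · right
    set u : A := 2 * ⟨y, hy⟩ + ((W.a₁ : ℤ) : A) * ⟨x, hx'⟩ + ((W.a₃ : ℤ) : A) with hu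
    have hres : IsLocalRing.residue A u ≠ 0 := by
      rw [hu]
      simp only [map_add, map_mul, map_intCast, map_ofNat]
      intro h0
      apply h2
      linear_combination h0
    have hunit : IsUnit u := (IsLocalRing.residue_ne_zero_iff_isUnit u).mp hres
    have hval := (ValuationSubring.valuation_eq_one_iff A u).mp hunit
    have hcoe : (u : L) = 2 * y + ((W.a₁ : ℤ) : L) * x + ((W.a₃ : ℤ) : L) := by
      rw [hu]
      push_cast
      rw [e2]
    rwa [hcoe] at hval

end Unit

/-! ### the non-toric congruences -/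

section NonToric

variable {L : Type*} [Field L] [DecidableEq L] (W : WeierstrassCurve ℤ) {A : ValuationSubring L}
  [DecidableEq (IsLocalRing.ResidueField A)]
  {p : ℕ} (hp : p.Prime) (hp2 : p ≠ 2) (hvp : A.valuation ((p : ℕ) : L) = 1)
  {VL : Affine L} (hVL : VL = (W.map (Int.castRingHom L)).toAffine)
  {t : VL.Point} (ht : p • t = 0) (ht0 : t ≠ 0) (htn : ¬ InZero W A t)

theorem not_dvd_of_mem_Ico {p k : ℕ} (hk : k ∈ Finset.Ico 1 p) : ¬ p ∣ k := by
  rw [Finset.mem_Ico] at hk
  exact Nat.not_dvd_of_pos_of_lt hk.1 hk.2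

include hp hp2 hvp hVL ht ht0 htn in
/-- no nonzero multiple of `t` lies in `E⁰`. -/
theorem not_inZero_nsmul {k : ℕ} (hk : ¬ p ∣ k) : ¬ InZero W A (k • t) := fun h =>
  htn ((inZero_nsmul_iff W hp hp2 hvp hVL ht ht0 hk).mp h)

omit [DecidableEq (IsLocalRing.ResidueField A)] in
include ht in
theorem nsmul_nsmul_eq_zero (k : ℕ) : p • (k • t) = 0 := by
  rw [smul_comm, ht, smul_zero]

include hVL in
/-- the data of a point outside `E⁰`, in the Vélu vocabulary. -/
theorem velu_data_of_not_inZero {R : VL.Point} (hR : ¬ InZero W A R) :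
    xco VL R ∈ A ∧ yco VL R ∈ A ∧ A.valuation (gx VL R) < 1 ∧
      A.valuation (Fermat.Agent.MAZ.ModInv.psi2 VL R) < 1 := by
  subst hVL
  obtain ⟨x, y, h, hx, hy, rfl, -⟩ := exists_of_not_inZero W rfl hR
  refine ⟨hx, hy, ?_, ?_⟩
  · have := val_gx_lt_one W hR
    simpa only [gx, Fermat.Agent.MAZ.ModInv.xco_some, Fermat.Agent.MAZ.ModInv.yco_some,
      WeierstrassCurve.map_a₁, WeierstrassCurve.map_a₂, WeierstrassCurve.map_a₄, eq_intCast]
      using this
  · have := val_gy_lt_one W hR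
    simpa only [Fermat.Agent.MAZ.ModInv.psi2_some, WeierstrassCurve.map_a₁,
      WeierstrassCurve.map_a₃, eq_intCast] using this

include hp hp2 hvp hVL ht ht0 htn in
/-- (a) Vélu's `t` lies in the maximal ideal. -/
theorem val_veluT_lt_one : A.valuation (veluT VL t p) < 1 := by
  refine val_finset_sum_lt_one _ _ fun k hk => ?_
  exact (velu_data_of_not_inZero W hVL
    (not_inZero_nsmul W hp hp2 hvp hVL ht ht0 htn (not_dvd_of_mem_Ico hk))).2.2.1

include hp hp2 hvp hVL ht ht0 htn in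
/-- (a) Vélu's `w` lies in the maximal ideal. -/
theorem val_veluW_lt_one : A.valuation (veluW VL t p) < 1 := by
  refine val_finset_sum_lt_one _ _ fun k hk => ?_
  obtain ⟨hx, hy, hgx, hgy⟩ := velu_data_of_not_inZero W hVL
    (not_inZero_nsmul W hp hp2 hvp hVL ht ht0 htn (not_dvd_of_mem_Ico hk))
  exact Valuation.map_add_lt _
    (val_mul_lt_one_right ((A.valuation_le_one_iff _).mpr hx) hgx)
    (val_mul_lt_one_right ((A.valuation_le_one_iff _).mpr hy) hgy)

include hp hp2 hvp hVL ht ht0 htn in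
/-- (ii) `a₄(V/⟨t⟩) ≡ a₄(V)`. -/
theorem val_veluCurve_a₄_sub_lt_one :
    A.valuation ((veluCurve VL t p).a₄ - VL.a₄) < 1 := by
  have h : (veluCurve VL t p).a₄ - VL.a₄ = -(5 * veluT VL t p) := by
    rw [veluCurve_a₄]; ring
  rw [h, Valuation.map_neg]
  refine val_mul_lt_one_right ?_ (val_veluT_lt_one W hp hp2 hvp hVL ht ht0 htn)
  exact_mod_cast valuation_natCast_le_one (A := A) 5

include hp hp2 hvp hVL ht ht0 htn in
/-- (ii) `a₆(V/⟨t⟩) ≡ a₆(V)`. -/
theorem val_veluCurve_a₆_sub_lt_one :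
    A.valuation ((veluCurve VL t p).a₆ - VL.a₆) < 1 := by
  have hT := val_veluT_lt_one W hp hp2 hvp hVL ht ht0 htn
  have hW := val_veluW_lt_one W hp hp2 hvp hVL ht ht0 htn
  have h : (veluCurve VL t p).a₆ - VL.a₆ = -(VL.b₂ * veluT VL t p) + -(7 * veluW VL t p) := by
    rw [veluCurve_a₆]; ring
  have hb₂ : A.valuation VL.b₂ ≤ 1 := by
    subst hVL
    rw [WeierstrassCurve.map_b₂, eq_intCast]
    exact valuation_intCast_le_one _
  rw [h]
  refine Valuation.map_add_lt _ ?_ ?_
  · rw [Valuation.map_neg]; exact val_mul_lt_one_right hb₂ hT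
  · rw [Valuation.map_neg]
    refine val_mul_lt_one_right ?_ hW
    exact_mod_cast valuation_natCast_le_one (A := A) 7

/-! #### the image of a point of `E⁰[p]` -/

variable {R : VL.Point} (hR : p • R = 0) (hR0 : R ≠ 0) (hRin : InZero W A R)

include hp hp2 hvp hVL ht ht0 htn hR hRin in
/-- (b) `veluX R ≡ x(R)`. -/
theorem val_veluX_sub_lt_one : A.valuation (veluX VL t p R - xco VL R) < 1 := by
  have hodd : Odd p := hp.odd_of_ne_two hp2
  have h : veluX VL t p R - xco VL R =
      ∑ k ∈ Finset.Ico 1 p, (xco VL (R + k • t) - xco VL (k • t)) := by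
    rw [veluX]; ring
  rw [h]
  refine val_finset_sum_lt_one _ _ fun k hk => ?_
  have hkt := not_inZero_nsmul W hp hp2 hvp hVL ht ht0 htn (not_dvd_of_mem_Ico hk)
  have hsum := not_inZero_add W hodd hvp hVL hR (nsmul_nsmul_eq_zero ht k) hRin hkt
  subst hVL
  exact (val_sub_lt_one_of_not_inZero W hsum hkt).1

include hp hp2 hvp hVL ht ht0 htn hR hRin in
/-- (b) `veluY R ≡ y(R)`. -/
theorem val_veluY_sub_lt_one : A.valuation (veluY VL t p R - yco VL R) < 1 := by
  have hodd : Odd p := hp.odd_of_ne_two hp2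
  have h : veluY VL t p R - yco VL R =
      ∑ k ∈ Finset.Ico 1 p, (yco VL (R + k • t) - yco VL (k • t)) := by
    rw [veluY]; ring
  rw [h]
  refine val_finset_sum_lt_one _ _ fun k hk => ?_
  have hkt := not_inZero_nsmul W hp hp2 hvp hVL ht ht0 htn (not_dvd_of_mem_Ico hk)
  have hsum := not_inZero_add W hodd hvp hVL hR (nsmul_nsmul_eq_zero ht k) hRin hkt
  subst hVL
  exact (val_sub_lt_one_of_not_inZero W hsum hkt).2

include hvp hVL hR hR0 in
/-- a nonzero `p`-torsion point has integral coordinates. -/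
theorem xco_yco_mem_of_torsion : xco VL R ∈ A ∧ yco VL R ∈ A := by
  subst hVL
  have hint : IntegralCoeffs A.valuation (W.map (Int.castRingHom L)).toAffine :=
    integralCoeffs_map W
  rcases R with _ | ⟨x, y, hns⟩
  · exact absurd rfl hR0
  have hvx : A.valuation x ≤ 1 := x_integral_of_nsmul_eq_zero hint hns hvp hR
  have hvy : A.valuation y ≤ 1 := by
    by_contra hy
    exact absurd (vx_of_vy hint hns.1 (not_le.mp hy)) (not_lt.mpr hvx)
  exact ⟨(A.valuation_le_one_iff x).mp hvx, (A.valuation_le_one_iff y).mp hvy⟩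

include hp hp2 hvp hVL ht ht0 htn hR hR0 hRin in
/-- (b) `veluX R` is integral. -/
theorem veluX_mem : veluX VL t p R ∈ A := by
  have h1 : veluX VL t p R - xco VL R ∈ A :=
    (A.valuation_le_one_iff _).mp (val_veluX_sub_lt_one W hp hp2 hvp hVL ht ht0 htn hR hRin).le
  have := A.add_mem _ _ h1 (xco_yco_mem_of_torsion W hvp hVL hR hR0).1
  rwa [sub_add_cancel] at this

include hp hp2 hvp hVL ht ht0 htn hR hR0 hRin in
/-- (b) `veluY R` is integral. -/
theorem veluY_mem : veluY VL t p R ∈ A := by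
  have h1 : veluY VL t p R - yco VL R ∈ A :=
    (A.valuation_le_one_iff _).mp (val_veluY_sub_lt_one W hp hp2 hvp hVL ht ht0 htn hR hRin).le
  have := A.add_mem _ _ h1 (xco_yco_mem_of_torsion W hvp hVL hR hR0).2
  rwa [sub_add_cancel] at this

include hp hp2 hvp hVL ht ht0 htn hR hR0 hRin in
/-- (b) **one of the partial derivatives of the Vélu curve at `(veluX R, veluY R)` is a unit.** -/
theorem val_velu_partial_eq_one :
    A.valuation (3 * veluX VL t p R ^ 2 + 2 * (veluCurve VL t p).a₂ * veluX VL t p R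
        + (veluCurve VL t p).a₄ - (veluCurve VL t p).a₁ * veluY VL t p R) = 1 ∨
      A.valuation (2 * veluY VL t p R + (veluCurve VL t p).a₁ * veluX VL t p R
        + (veluCurve VL t p).a₃) = 1 := by
  have hX := val_veluX_sub_lt_one W hp hp2 hvp hVL ht ht0 htn hR hRin
  have hY := val_veluY_sub_lt_one W hp hp2 hvp hVL ht ht0 htn hR hRin
  have hXm := veluX_mem W hp hp2 hvp hVL ht ht0 htn hR hR0 hRin
  have hYm := veluY_mem W hp hp2 hvp hVL ht ht0 htn hR hR0 hRin
  have ha₄ := val_veluCurve_a₄_sub_lt_one W hp hp2 hvp hVL ht ht0 htn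
  obtain ⟨hxm, hym⟩ := xco_yco_mem_of_torsion W hvp hVL hR hR0
  rw [veluCurve_a₁, veluCurve_a₂, veluCurve_a₃]
  set X := veluX VL t p R with hXdef
  set Y := veluY VL t p R with hYdef
  set a₄' := (veluCurve VL t p).a₄ with ha₄def
  subst hVL
  rcases R with _ | ⟨x, y, hns⟩
  · exact absurd rfl hR0
  simp only [Fermat.Agent.MAZ.ModInv.xco_some, Fermat.Agent.MAZ.ModInv.yco_some] at hX hY hxm hym
  have hvx : A.valuation x ≤ 1 := (A.valuation_le_one_iff x).mpr hxm
  have hvX : A.valuation X ≤ 1 := (A.valuation_le_one_iff X).mpr hXm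
  have ha₁ : A.valuation (((W.a₁ : ℤ) : L)) ≤ 1 := valuation_intCast_le_one _
  have ha₂ : A.valuation (((W.a₂ : ℤ) : L)) ≤ 1 := valuation_intCast_le_one _
  have h2 : A.valuation (2 : L) ≤ 1 := by exact_mod_cast valuation_natCast_le_one (A := A) 2
  have h3 : A.valuation (3 : L) ≤ 1 := by exact_mod_cast valuation_natCast_le_one (A := A) 3
  simp only [WeierstrassCurve.map_a₁, WeierstrassCurve.map_a₂, WeierstrassCurve.map_a₃,
    WeierstrassCurve.map_a₄, eq_intCast] at ha₄ ⊢
  rcases val_gx_or_gy_eq_one W hxm hRin with h1 | h1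
  · left
    refine val_eq_one_of_sub_lt_one h1 ?_
    have hdiff : 3 * X ^ 2 + 2 * ((W.a₂ : ℤ) : L) * X + a₄' - ((W.a₁ : ℤ) : L) * Y -
        (3 * x ^ 2 + 2 * ((W.a₂ : ℤ) : L) * x + ((W.a₄ : ℤ) : L) - ((W.a₁ : ℤ) : L) * y) =
        (3 * (X + x) + 2 * ((W.a₂ : ℤ) : L)) * (X - x) + (a₄' - ((W.a₄ : ℤ) : L))
          + -(((W.a₁ : ℤ) : L) * (Y - y)) := by ring
    rw [hdiff]
    refine Valuation.map_add_lt _ (Valuation.map_add_lt _ ?_ ha₄) ?_
    · refine val_mul_lt_one_right ?_ hX
      refine (Valuation.map_add_le _ ?_ ?_)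
      · rw [map_mul]
        exact mul_le_one' h3 (Valuation.map_add_le _ hvX hvx)
      · rw [map_mul]
        exact mul_le_one' h2 ha₂
    · rw [Valuation.map_neg]
      exact val_mul_lt_one_right ha₁ hY
  · right
    refine val_eq_one_of_sub_lt_one h1 ?_
    have hdiff : 2 * Y + ((W.a₁ : ℤ) : L) * X + ((W.a₃ : ℤ) : L) -
        (2 * y + ((W.a₁ : ℤ) : L) * x + ((W.a₃ : ℤ) : L)) =
        2 * (Y - y) + ((W.a₁ : ℤ) : L) * (X - x) := by ring
    rw [hdiff]
    exact Valuation.map_add_lt _ (val_mul_lt_one_right h2 hY) (val_mul_lt_one_right ha₁ hX)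

include hp hp2 hvp hVL ht ht0 htn hR0 hRin in
/-- (c) a nonzero point of `E⁰` is not a multiple of `t`. -/
theorem not_mem_zmultiples : R ∉ AddSubgroup.zmultiples t := by
  intro hmem
  obtain ⟨k, hkR⟩ := AddSubgroup.mem_zmultiples_iff.mp hmem
  have hk : ¬ (p : ℤ) ∣ k := by
    intro hd
    obtain ⟨c, rfl⟩ := hd
    apply hR0
    rw [← hkR, mul_comm, mul_smul, natCast_zsmul, ht, smul_zero]
  -- reduce to a natural multiple
  have hpos : (0 : ℤ) < p := by exact_mod_cast hp.pos
  set k' : ℕ := (k % p).toNat with hk'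
  have hk'eq : (k' : ℤ) = k % p := Int.toNat_of_nonneg (Int.emod_nonneg k hpos.ne')
  have hkt : k • t = k' • t := by
    have h1 : k = k % p + p * (k / p) := (Int.emod_add_mul_ediv k p).symm
    have hz : ((p : ℤ) * (k / p)) • t = 0 := by
      rw [mul_comm, mul_smul, natCast_zsmul, ht, smul_zero]
    calc k • t = (k % p + p * (k / p)) • t := by rw [← h1]
      _ = (k % p) • t + ((p : ℤ) * (k / p)) • t := add_smul _ _ _
      _ = (k % p) • t := by rw [hz, add_zero]
      _ = k' • t := by rw [← hk'eq, natCast_zsmul]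
  have hndvd : ¬ p ∣ k' := by
    intro hd
    apply hk
    have h2 : (p : ℤ) ∣ (k' : ℤ) := by exact_mod_cast hd
    rw [hk'eq] at h2
    exact (Int.dvd_iff_emod_eq_zero ..).mpr (by
      have := Int.emod_emod_of_dvd k (dvd_refl (p : ℤ))
      obtain ⟨c, hc⟩ := h2
      rw [← this, hc, Int.mul_emod_right])
  have hin : InZero W A (k' • t) := by
    rw [← hkt, hkR]
    exact hRin
  exact not_inZero_nsmul W hp hp2 hvp hVL ht ht0 htn hndvd hin

end NonToric

end Fermat.Agent.S12P.Toric44
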