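/-
S12 programme, brick 757 TORIC part 9c (helper44), file 5: the `ℚ̄`-package for brick 9d.

`W` an integral Weierstrass curve with `Δ ≠ 0`, `ℓ ≠ p` primes, `p` odd, `ℓ ∣ Δ`, `ℓ ∤ c₄`, `A` a valuation
subring of `ℚ̄` over `ℓ`, `V = W_{ℚ̄}` (in any incarnation `hVL : VL = (W.map (Int.castRingHom ℚ̄)).toAffine`),
`t ∈ V[p]`, `t ≠ 0`, `t` NOT in the zero component at `A` (`¬ Loc44.InZero W A t`).  Then
(`nontoric_main`, vocabulary `S12P/VeluDef51`):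

(a) `v(veluT) < 1`, `v(veluW) < 1`, `a₄(V/⟨t⟩) ≡ a₄(V)`, `a₆(V/⟨t⟩) ≡ a₆(V)` (and `a₁, a₂, a₃` are unchanged);
(c) there is `R₀ ∈ V[p]`, `R₀ ≠ 0`, in the zero component, `R₀ ∉ ⟨t⟩`, such that
(b) `X := veluX R₀`, `Y := veluY R₀` are integral, `X ≡ x(R₀)`, `Y ≡ y(R₀)`, and one of the two partial
    derivatives of the Vélu curve at `(X, Y)` is a unit of `A`.
-/
import Mathlib
import Fermat.Agent.S12P.Toric44.Velu
import Fermat.Agent.S12P.Toric44.Exists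

set_option autoImplicit false
set_option linter.unusedSectionVars false

open WeierstrassCurve WeierstrassCurve.Affine

namespace Fermat.Agent.S12P.Toric44

open Fermat.Agent.InertiaMult Fermat.Agent.ES.EC Fermat.Agent.MAZ.Loc44
open Fermat.Agent.MAZ.ModInv (xco yco)
open Fermat.Agent.S12P.VeluDef51

local notation "Qb" => AlgebraicClosure ℚ

/-- (iii)/(c), incarnation-free: a nonzero point of `E⁰[p]` at a multiplicative prime `ℓ ≠ p`. -/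
theorem exists_inZero_point (W : WeierstrassCurve ℤ) (hΔ : W.Δ ≠ 0) {ℓ p : ℕ} (hℓ : ℓ.Prime)
    (hp : p.Prime) (hne : p ≠ ℓ) (hℓΔ : (ℓ : ℤ) ∣ W.Δ) (hℓc : ¬ (ℓ : ℤ) ∣ W.c₄)
    {A : ValuationSubring Qb} (hA : A.LiesOverPrime ℓ)
    {VL : Affine Qb} (hVL : VL = (W.map (Int.castRingHom Qb)).toAffine) :
    ∃ R₀ : VL.Point, p • R₀ = 0 ∧ R₀ ≠ 0 ∧ InZero W A R₀ := by
  have hVL' : VL = ((W.map (Int.castRingHom ℚ))⁄Qb) :=
    hVL.trans (TorsionLift20.baseChange_eq_map W).symm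
  subst hVL'
  obtain ⟨x, y, h, hx, hy, hR, -, hin⟩ := exists_inZero_torsion W hΔ hℓ hp hne hℓΔ hℓc hA
  exact ⟨Point.some x y h, hR, Point.some_ne_zero h, hin⟩

/-- **9c, the package for 9d.** -/
theorem nontoric_main (W : WeierstrassCurve ℤ) (hΔ : W.Δ ≠ 0) {ℓ p : ℕ} (hℓ : ℓ.Prime)
    (hp : p.Prime) (hp2 : p ≠ 2) (hne : p ≠ ℓ) (hℓΔ : (ℓ : ℤ) ∣ W.Δ) (hℓc : ¬ (ℓ : ℤ) ∣ W.c₄)
    {A : ValuationSubring Qb} (hA : A.LiesOverPrime ℓ)
    {VL : Affine Qb} (hVL : VL = (W.map (Int.castRingHom Qb)).toAffine)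
    {t : VL.Point} (ht : p • t = 0) (ht0 : t ≠ 0) (htn : ¬ InZero W A t) :
    A.valuation (veluT VL t p) < 1 ∧ A.valuation (veluW VL t p) < 1 ∧
    A.valuation ((veluCurve VL t p).a₄ - VL.a₄) < 1 ∧
    A.valuation ((veluCurve VL t p).a₆ - VL.a₆) < 1 ∧
    ∃ R₀ : VL.Point, p • R₀ = 0 ∧ R₀ ≠ 0 ∧ InZero W A R₀ ∧ R₀ ∉ AddSubgroup.zmultiples t ∧
      veluX VL t p R₀ ∈ A ∧ veluY VL t p R₀ ∈ A ∧
      A.valuation (veluX VL t p R₀ - xco VL R₀) < 1 ∧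
      A.valuation (veluY VL t p R₀ - yco VL R₀) < 1 ∧
      (A.valuation (3 * veluX VL t p R₀ ^ 2 + 2 * (veluCurve VL t p).a₂ * veluX VL t p R₀
          + (veluCurve VL t p).a₄ - (veluCurve VL t p).a₁ * veluY VL t p R₀) = 1 ∨
        A.valuation (2 * veluY VL t p R₀ + (veluCurve VL t p).a₁ * veluX VL t p R₀
          + (veluCurve VL t p).a₃) = 1) := by
  classical
  have hvp : A.valuation ((p : ℕ) : Qb) = 1 := valuation_p_eq_one hp hℓ (Ne.symm hne) hA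
  obtain ⟨R₀, hR, hR0, hRin⟩ := exists_inZero_point W hΔ hℓ hp hne hℓΔ hℓc hA hVL
  exact ⟨val_veluT_lt_one W hp hp2 hvp hVL ht ht0 htn,
    val_veluW_lt_one W hp hp2 hvp hVL ht ht0 htn,
    val_veluCurve_a₄_sub_lt_one W hp hp2 hvp hVL ht ht0 htn,
    val_veluCurve_a₆_sub_lt_one W hp hp2 hvp hVL ht ht0 htn,
    R₀, hR, hR0, hRin,
    not_mem_zmultiples W hp hp2 hvp hVL ht ht0 htn hR0 hRin,
    veluX_mem W hp hp2 hvp hVL ht ht0 htn hR hR0 hRin,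
    veluY_mem W hp hp2 hvp hVL ht ht0 htn hR hR0 hRin,
    val_veluX_sub_lt_one W hp hp2 hvp hVL ht ht0 htn hR hRin,
    val_veluY_sub_lt_one W hp hp2 hvp hVL ht ht0 htn hR hRin,
    val_velu_partial_eq_one W hp hp2 hvp hVL ht ht0 htn hR hR0 hRin⟩

end Fermat.Agent.S12P.Toric44
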