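/-
S12 programme, brick 757 TORIC part 9c (helper44), file 6: the interface with the integral model `W'` of
brick 9a.

`W` an integral Weierstrass curve, `A` a valuation subring, `t ∈ W(L)[p]`, `t ≠ 0`, NOT in the zero
component at `A` (non-toric kernel).  `W'` an integral Weierstrass curve and `u` a unit of `A` with
`a_i(W') = u^i a_i(veluCurve V t p)` (`i = 1, 2, 3, 4, 6`; for 9a: `u = p^k`).  Then

* `congScaled_of_velu` : `W'` is congruent to the `u`-scaling of `W` modulo the maximal ideal of `A`;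
* `dvd_Δ_model`, `not_dvd_c₄_model` : `ℓ ∣ Δ(W) ⟹ ℓ ∣ Δ(W')`, `ℓ ∤ c₄(W) ⟹ ℓ ∤ c₄(W')` (`A` over `ℓ`);
* `inZero_velu_image` : for `R ∈ E⁰[p]`, `R ≠ 0`, the point `(u² veluX R, u³ veluY R)` of `W'` lies in the zero
  component of `W'` at `A`;
* `nontoric_model` : the `ℚ̄`-package (with the existence of `R₀`).
-/
import Mathlib
import Fermat.Agent.S12P.Toric44.Final
import Fermat.Agent.S12P.Toric44.Cong

set_option autoImplicit false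
set_option linter.unusedSectionVars false

open WeierstrassCurve WeierstrassCurve.Affine

namespace Fermat.Agent.S12P.Toric44

open Fermat.Agent.InertiaMult Fermat.Agent.S05.Inertia Fermat.Agent.ES.EC Fermat.Agent.MAZ.Loc44
open Fermat.Agent.MAZ.ModInv (xco yco)
open Fermat.Agent.S12P.VeluDef51

section General

variable {L : Type*} [Field L] [DecidableEq L] (W W' : WeierstrassCurve ℤ) {A : ValuationSubring L}
  [DecidableEq (IsLocalRing.ResidueField A)]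
  {p : ℕ} (hp : p.Prime) (hp2 : p ≠ 2) (hvp : A.valuation ((p : ℕ) : L) = 1)
  {VL : Affine L} (hVL : VL = (W.map (Int.castRingHom L)).toAffine)
  {t : VL.Point} (ht : p • t = 0) (ht0 : t ≠ 0) (htn : ¬ InZero W A t)
  {u : L} (hu : A.valuation u = 1)
  (h₁ : ((W'.a₁ : ℤ) : L) = u * (veluCurve VL t p).a₁)
  (h₂ : ((W'.a₂ : ℤ) : L) = u ^ 2 * (veluCurve VL t p).a₂)
  (h₃ : ((W'.a₃ : ℤ) : L) = u ^ 3 * (veluCurve VL t p).a₃)
  (h₄ : ((W'.a₄ : ℤ) : L) = u ^ 4 * (veluCurve VL t p).a₄)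
  (h₆ : ((W'.a₆ : ℤ) : L) = u ^ 6 * (veluCurve VL t p).a₆)

include hp hp2 hvp hVL ht ht0 htn hu h₁ h₂ h₃ h₄ h₆ in
/-- In the non-toric case the scaled Vélu model is congruent to the scaled original model. -/
theorem congScaled_of_velu : CongScaled W W' A u := by
  have ha₄ := val_veluCurve_a₄_sub_lt_one W hp hp2 hvp hVL ht ht0 htn
  have ha₆ := val_veluCurve_a₆_sub_lt_one W hp hp2 hvp hVL ht ht0 htn
  have hu4 : A.valuation (u ^ 4) ≤ 1 := by rw [map_pow, hu, one_pow]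
  have hu6 : A.valuation (u ^ 6) ≤ 1 := by rw [map_pow, hu, one_pow]
  subst hVL
  simp only [veluCurve_a₁, veluCurve_a₂, veluCurve_a₃, WeierstrassCurve.map_a₁,
    WeierstrassCurve.map_a₂, WeierstrassCurve.map_a₃, eq_intCast] at h₁ h₂ h₃
  simp only [WeierstrassCurve.map_a₄, WeierstrassCurve.map_a₆, eq_intCast] at ha₄ ha₆
  refine ⟨hu, ?_, ?_, ?_, ?_, ?_⟩
  · rw [h₁, sub_self, map_zero]; exact zero_lt_one
  · rw [h₂, sub_self, map_zero]; exact zero_lt_one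
  · rw [h₃, sub_self, map_zero]; exact zero_lt_one
  · rw [h₄, ← mul_sub]
    exact val_mul_lt_one_right hu4 ha₄
  · rw [h₆, ← mul_sub]
    exact val_mul_lt_one_right hu6 ha₆

include hp hp2 hvp hVL ht ht0 htn hu h₁ h₂ h₃ h₄ h₆ in
/-- `ℓ ∣ Δ(W) ⟹ ℓ ∣ Δ(W')`. -/
theorem dvd_Δ_model {ℓ : ℕ} (hℓ : ℓ.Prime) (hA : A.LiesOverPrime ℓ) (h : (ℓ : ℤ) ∣ W.Δ) :
    (ℓ : ℤ) ∣ W'.Δ :=
  (congScaled_of_velu W W' hp hp2 hvp hVL ht ht0 htn hu h₁ h₂ h₃ h₄ h₆).dvd_Δ hℓ hA h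

include hp hp2 hvp hVL ht ht0 htn hu h₁ h₂ h₃ h₄ h₆ in
/-- `ℓ ∤ c₄(W) ⟹ ℓ ∤ c₄(W')`. -/
theorem not_dvd_c₄_model {ℓ : ℕ} (hℓ : ℓ.Prime) (hA : A.LiesOverPrime ℓ) (h : ¬ (ℓ : ℤ) ∣ W.c₄) :
    ¬ (ℓ : ℤ) ∣ W'.c₄ :=
  (congScaled_of_velu W W' hp hp2 hvp hVL ht ht0 htn hu h₁ h₂ h₃ h₄ h₆).not_dvd_c₄ hℓ hA h

include hp hp2 hvp hVL ht ht0 htn hu h₁ h₂ h₃ h₄ h₆ in
/-- **The image of a point of `E⁰[p]` lies in the zero component of the model `W'`.** -/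
theorem inZero_velu_image {R : VL.Point} (hR : p • R = 0) (hR0 : R ≠ 0) (hRin : InZero W A R)
    {VL' : Affine L} (hVL' : VL' = (W'.map (Int.castRingHom L)).toAffine)
    (h' : VL'.Nonsingular (u ^ 2 * veluX VL t p R) (u ^ 3 * veluY VL t p R)) :
    InZero W' A (Point.some _ _ h') := by
  have hc := congScaled_of_velu W W' hp hp2 hvp hVL ht ht0 htn hu h₁ h₂ h₃ h₄ h₆
  have hX := val_veluX_sub_lt_one W hp hp2 hvp hVL ht ht0 htn hR hRin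
  have hY := val_veluY_sub_lt_one W hp hp2 hvp hVL ht ht0 htn hR hRin
  obtain ⟨hxm, hym⟩ := xco_yco_mem_of_torsion W hvp hVL hR hR0
  have hu2 : A.valuation (u ^ 2) ≤ 1 := by rw [map_pow, hu, one_pow]
  have hu3 : A.valuation (u ^ 3) ≤ 1 := by rw [map_pow, hu, one_pow]
  subst hVL
  rcases R with _ | ⟨x, y, hns⟩
  · exact absurd rfl hR0
  simp only [Fermat.Agent.MAZ.ModInv.xco_some, Fermat.Agent.MAZ.ModInv.yco_some] at hX hY hxm hym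
  -- the residue point of `R` is nonsingular
  rcases hRin with h0 | ⟨x', y', h'', he, hcase⟩
  · exact absurd h0 (Point.some_ne_zero hns)
  rw [Point.some.injEq] at he
  obtain ⟨rfl, rfl⟩ := he
  rcases hcase with hxn | ⟨hx, hy, hnsk⟩
  · exact absurd hxm hxn
  refine hc.inZero hx hy hnsk hVL' h' ?_ ?_
  · rw [← mul_sub]; exact val_mul_lt_one_right hu2 hX
  · rw [← mul_sub]; exact val_mul_lt_one_right hu3 hY

end General

/-! ### the `ℚ̄`-package -/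

section Qbar

local notation "Qb" => AlgebraicClosure ℚ

/-- **9c for the model of 9a**: in the non-toric case `W'` is multiplicative at `ℓ` and the images of
the nonzero points of `E⁰[p]` (which exist) lie in the zero component of `W'`. -/
theorem nontoric_model (W W' : WeierstrassCurve ℤ) (hΔ : W.Δ ≠ 0) {ℓ p : ℕ} (hℓ : ℓ.Prime)
    (hp : p.Prime) (hp2 : p ≠ 2) (hne : p ≠ ℓ) (hℓΔ : (ℓ : ℤ) ∣ W.Δ) (hℓc : ¬ (ℓ : ℤ) ∣ W.c₄)
    {A : ValuationSubring Qb} (hA : A.LiesOverPrime ℓ)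
    {VL : Affine Qb} (hVL : VL = (W.map (Int.castRingHom Qb)).toAffine)
    {t : VL.Point} (ht : p • t = 0) (ht0 : t ≠ 0) (htn : ¬ InZero W A t)
    {u : Qb} (hu : A.valuation u = 1)
    (h₁ : ((W'.a₁ : ℤ) : Qb) = u * (veluCurve VL t p).a₁)
    (h₂ : ((W'.a₂ : ℤ) : Qb) = u ^ 2 * (veluCurve VL t p).a₂)
    (h₃ : ((W'.a₃ : ℤ) : Qb) = u ^ 3 * (veluCurve VL t p).a₃)
    (h₄ : ((W'.a₄ : ℤ) : Qb) = u ^ 4 * (veluCurve VL t p).a₄)
    (h₆ : ((W'.a₆ : ℤ) : Qb) = u ^ 6 * (veluCurve VL t p).a₆) :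
    (ℓ : ℤ) ∣ W'.Δ ∧ ¬ (ℓ : ℤ) ∣ W'.c₄ ∧
    (∃ R₀ : VL.Point, p • R₀ = 0 ∧ R₀ ≠ 0 ∧ InZero W A R₀ ∧ R₀ ∉ AddSubgroup.zmultiples t) ∧
    ∀ R : VL.Point, p • R = 0 → R ≠ 0 → InZero W A R →
      ∀ {VL' : Affine Qb} (_ : VL' = (W'.map (Int.castRingHom Qb)).toAffine)
        (h' : VL'.Nonsingular (u ^ 2 * veluX VL t p R) (u ^ 3 * veluY VL t p R)),
        InZero W' A (Point.some _ _ h') := by
  classical
  have hvp : A.valuation ((p : ℕ) : Qb) = 1 := valuation_p_eq_one hp hℓ (Ne.symm hne) hA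
  refine ⟨dvd_Δ_model W W' hp hp2 hvp hVL ht ht0 htn hu h₁ h₂ h₃ h₄ h₆ hℓ hA hℓΔ,
    not_dvd_c₄_model W W' hp hp2 hvp hVL ht ht0 htn hu h₁ h₂ h₃ h₄ h₆ hℓ hA hℓc, ?_, ?_⟩
  · obtain ⟨R₀, hR, hR0, hRin⟩ := exists_inZero_point W hΔ hℓ hp hne hℓΔ hℓc hA hVL
    exact ⟨R₀, hR, hR0, hRin, not_mem_zmultiples W hp hp2 hvp hVL ht ht0 htn hR0 hRin⟩
  · intro R hR hR0 hRin VL' hVL' h'
    exact inZero_velu_image W W' hp hp2 hvp hVL ht ht0 htn hu h₁ h₂ h₃ h₄ h₆ hR hR0 hRin hVL' h'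

/-- a power of `p` is a unit at a place over `ℓ ≠ p`. -/
theorem valuation_p_pow_eq_one {ℓ p : ℕ} (hℓ : ℓ.Prime) (hp : p.Prime) (hne : p ≠ ℓ)
    {A : ValuationSubring Qb} (hA : A.LiesOverPrime ℓ) (k : ℕ) :
    A.valuation (((p : ℕ) : Qb) ^ k) = 1 := by
  rw [map_pow, valuation_p_eq_one hp hℓ (Ne.symm hne) hA, one_pow]

end Qbar

end Fermat.Agent.S12P.Toric44
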