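/-
S12 programme, brick 757 TORIC (helper44), file 7: the TORIC-side type of the Vélu model, at any prime
`ℓ ≠ p` (used at `ℓ = 3`).

`W` an integral Weierstrass curve, `A` a valuation subring of `L`, `p` an odd prime which is a unit of `A`,
`t ∈ W(L)[p]`, `t ≠ 0`, IN the zero component at `A` (toric kernel, or good reduction).  HYPOTHESIS
`hDQ : Δ(veluCurve V t p) * ModInv.psiProd V t p = Δ(V) ^ p` (brick VELU-Q).  Then

* `val_modInv_psiProd_eq_one` : `v(∏_{0<k<p} ψ₂(k•t)⁴) = 1`;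
* `val_veluCurve_Δ` : `v(Δ(V/⟨t⟩)) = v(Δ(W))^p`;
* in the `W'`-form of `Model.lean` (`a_i(W') = u^i a_i(veluCurve)`, `u` a unit of `A`): `coe_Δ_model`
  (`Δ(W') = u¹² Δ(veluCurve)`), `val_Δ_model` (`v(Δ(W')) = v(Δ(W))^p`), and for `A` over `ℓ`:
  (i) `dvd_Δ_model_toric : ℓ ∣ Δ(W) → ℓ ∣ Δ(W')`,
  (ii) `not_dvd_Δ_model_good : ℓ ∤ Δ(W) → ℓ ∤ Δ(W')` and `inZero_model_good` : then EVERY point of `W'_L`
  is in the zero component of `W'` at `A`;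
* `veluT_mem`, `val_c₄_model_eq_one`, `not_dvd_c₄_model_small` : for `ℓ ∣ 240` (`ℓ = 2, 3, 5`), WHATEVER the
  kernel: `ℓ ∤ c₄(W) → ℓ ∤ c₄(W')` (`c₄' = u⁴ (c₄ + 240 T)`, `T` integral).
-/
import Mathlib
import Fermat.Agent.S12P.Toric44.Model
import Fermat.Agent.S12P.LocUnit28.Units

set_option autoImplicit false
set_option linter.unusedSectionVars false

open WeierstrassCurve WeierstrassCurve.Affine

namespace Fermat.Agent.S12P.Toric44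

open Fermat.Agent.InertiaMult Fermat.Agent.S05.Inertia Fermat.Agent.ES.EC Fermat.Agent.MAZ.Loc44
open Fermat.Agent.S12P.VeluDef51

section General

variable {L : Type*} [Field L] [DecidableEq L] (W W' : WeierstrassCurve ℤ) {A : ValuationSubring L}
  [DecidableEq (IsLocalRing.ResidueField A)]
  {p : ℕ} (hp : p.Prime) (hp2 : p ≠ 2) (hvp : A.valuation ((p : ℕ) : L) = 1)
  {VL : Affine L} (hVL : VL = (W.map (Int.castRingHom L)).toAffine)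
  {t : VL.Point} (ht : p • t = 0) (ht0 : t ≠ 0) (htin : InZero W A t)

/-- The two `ψ₂` agree off the origin. -/
theorem modInv_psi2_eq_of_ne_zero {V : Affine L} {R : V.Point} (hR : R ≠ 0) :
    Fermat.Agent.MAZ.ModInv.psi2 V R = psi2 R := by
  rcases R with _ | ⟨x, y, h⟩
  · exact absurd rfl hR
  · rfl

include hp hp2 hvp hVL ht ht0 htin in
/-- In the toric case `∏_{0<k<p} ψ₂(k•t)⁴` is a unit. -/
theorem val_modInv_psiProd_eq_one :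
    A.valuation (Fermat.Agent.MAZ.ModInv.psiProd VL t p) = 1 := by
  unfold Fermat.Agent.MAZ.ModInv.psiProd
  rw [map_prod]
  refine Finset.prod_eq_one fun k hk => ?_
  have hk' : ¬ p ∣ k := not_dvd_of_mem_Ico hk
  rw [map_pow, modInv_psi2_eq_of_ne_zero (nsmul_ne_zero_of_not_dvd hp ht ht0 hk'),
    val_psi2_nsmul_eq_one W hp hp2 hvp hVL ht ht0 htin hk', one_pow]

include hp hp2 hvp hVL ht ht0 htin in
/-- **Toric case: `v(Δ(V/⟨t⟩)) = v(Δ(W))^p`.** -/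
theorem val_veluCurve_Δ
    (hDQ : (veluCurve VL t p).Δ * Fermat.Agent.MAZ.ModInv.psiProd VL t p = VL.Δ ^ p) :
    A.valuation (veluCurve VL t p).Δ = A.valuation ((W.Δ : ℤ) : L) ^ p := by
  have h1 := congrArg A.valuation hDQ
  rw [map_mul, val_modInv_psiProd_eq_one W hp hp2 hvp hVL ht ht0 htin, mul_one, map_pow] at h1
  rw [h1]
  subst hVL
  rw [WeierstrassCurve.map_Δ, eq_intCast]

/-! #### the model `W'` -/

variable {u : L} (hu : A.valuation u = 1)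
  (h₁ : ((W'.a₁ : ℤ) : L) = u * (veluCurve VL t p).a₁)
  (h₂ : ((W'.a₂ : ℤ) : L) = u ^ 2 * (veluCurve VL t p).a₂)
  (h₃ : ((W'.a₃ : ℤ) : L) = u ^ 3 * (veluCurve VL t p).a₃)
  (h₄ : ((W'.a₄ : ℤ) : L) = u ^ 4 * (veluCurve VL t p).a₄)
  (h₆ : ((W'.a₆ : ℤ) : L) = u ^ 6 * (veluCurve VL t p).a₆)

omit [DecidableEq (IsLocalRing.ResidueField A)] in
include h₁ h₂ h₃ h₄ h₆ in
/-- `Δ(W') = u¹² Δ(veluCurve)`. -/
theorem coe_Δ_model : ((W'.Δ : ℤ) : L) = u ^ 12 * (veluCurve VL t p).Δ := by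
  simp only [WeierstrassCurve.Δ, WeierstrassCurve.b₂, WeierstrassCurve.b₄, WeierstrassCurve.b₆,
    WeierstrassCurve.b₈]
  push_cast
  rw [h₁, h₂, h₃, h₄, h₆]
  ring

omit [DecidableEq (IsLocalRing.ResidueField A)] in
include h₁ h₂ h₃ h₄ in
/-- `c₄(W') = u⁴ c₄(veluCurve)`. -/
theorem coe_c₄_model : ((W'.c₄ : ℤ) : L) = u ^ 4 * (veluCurve VL t p).c₄ := by
  simp only [WeierstrassCurve.c₄, WeierstrassCurve.b₂, WeierstrassCurve.b₄]
  push_cast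
  rw [h₁, h₂, h₃, h₄]
  ring

include hp hp2 hvp hVL ht ht0 htin hu h₁ h₂ h₃ h₄ h₆ in
/-- **Toric case: `v(Δ(W')) = v(Δ(W))^p`.** -/
theorem val_Δ_model
    (hDQ : (veluCurve VL t p).Δ * Fermat.Agent.MAZ.ModInv.psiProd VL t p = VL.Δ ^ p) :
    A.valuation ((W'.Δ : ℤ) : L) = A.valuation ((W.Δ : ℤ) : L) ^ p := by
  rw [coe_Δ_model W' h₁ h₂ h₃ h₄ h₆, map_mul, map_pow, hu, one_pow, one_mul,
    val_veluCurve_Δ W hp hp2 hvp hVL ht ht0 htin hDQ]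

include hp hp2 hvp hVL ht ht0 htin hu h₁ h₂ h₃ h₄ h₆ in
/-- (i) toric case: `ℓ ∣ Δ(W) → ℓ ∣ Δ(W')`. -/
theorem dvd_Δ_model_toric
    (hDQ : (veluCurve VL t p).Δ * Fermat.Agent.MAZ.ModInv.psiProd VL t p = VL.Δ ^ p)
    {ℓ : ℕ} (hℓ : ℓ.Prime) (hA : A.LiesOverPrime ℓ) (h : (ℓ : ℤ) ∣ W.Δ) : (ℓ : ℤ) ∣ W'.Δ := by
  rw [← valuation_intCast_lt_one_iff hℓ hA] at h ⊢
  rw [val_Δ_model W W' hp hp2 hvp hVL ht ht0 htin hu h₁ h₂ h₃ h₄ h₆ hDQ]
  exact pow_lt_one₀ zero_le h hp.ne_zero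

include hp hp2 hvp hVL ht ht0 htin hu h₁ h₂ h₃ h₄ h₆ in
/-- (ii) good reduction: `v(Δ(W)) = 1 → v(Δ(W')) = 1`. -/
theorem val_Δ_model_eq_one
    (hDQ : (veluCurve VL t p).Δ * Fermat.Agent.MAZ.ModInv.psiProd VL t p = VL.Δ ^ p)
    (h : A.valuation ((W.Δ : ℤ) : L) = 1) : A.valuation ((W'.Δ : ℤ) : L) = 1 := by
  rw [val_Δ_model W W' hp hp2 hvp hVL ht ht0 htin hu h₁ h₂ h₃ h₄ h₆ hDQ, h, one_pow]

include hp hp2 hvp hVL ht ht0 htin hu h₁ h₂ h₃ h₄ h₆ in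
/-- (ii) good reduction: `ℓ ∤ Δ(W) → ℓ ∤ Δ(W')`. -/
theorem not_dvd_Δ_model_good
    (hDQ : (veluCurve VL t p).Δ * Fermat.Agent.MAZ.ModInv.psiProd VL t p = VL.Δ ^ p)
    {ℓ : ℕ} (hℓ : ℓ.Prime) (hA : A.LiesOverPrime ℓ) (h : ¬ (ℓ : ℤ) ∣ W.Δ) : ¬ (ℓ : ℤ) ∣ W'.Δ := by
  intro hd
  have h1 := val_Δ_model_eq_one W W' hp hp2 hvp hVL ht ht0 htin hu h₁ h₂ h₃ h₄ h₆ hDQ
    (valuation_intCast_eq_one hℓ hA h)
  have h2 := (valuation_intCast_lt_one_iff hℓ hA _).mpr hd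
  rw [h1] at h2
  exact lt_irrefl _ h2

include hp hp2 hvp hVL ht ht0 htin hu h₁ h₂ h₃ h₄ h₆ in
/-- (ii) good reduction: every point of `W'` lies in the zero component at `A`. -/
theorem inZero_model_good
    (hDQ : (veluCurve VL t p).Δ * Fermat.Agent.MAZ.ModInv.psiProd VL t p = VL.Δ ^ p)
    (h : A.valuation ((W.Δ : ℤ) : L) = 1)
    {VL' : Affine L} (hVL' : VL' = (W'.map (Int.castRingHom L)).toAffine) (R : VL'.Point) :
    InZero W' A R :=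
  Fermat.Agent.S12P.LocUnit28.inZero_of_val_Δ_eq_one W'
    (val_Δ_model_eq_one W W' hp hp2 hvp hVL ht ht0 htin hu h₁ h₂ h₃ h₄ h₆ hDQ h) hVL' R

end General

/-! ### `c₄` of the model at the primes dividing `240` (no hypothesis on the kernel) -/

section Small

variable {L : Type*} [Field L] [DecidableEq L] (W W' : WeierstrassCurve ℤ) {A : ValuationSubring L}
  [DecidableEq (IsLocalRing.ResidueField A)]
  {p : ℕ} (hvp : A.valuation ((p : ℕ) : L) = 1)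
  {VL : Affine L} (hVL : VL = (W.map (Int.castRingHom L)).toAffine)
  {t : VL.Point} (ht : p • t = 0)

include hvp hVL ht in
/-- Vélu's `t` is integral (the kernel consists of torsion points prime to the residue
characteristic). -/
theorem veluT_mem : veluT VL t p ∈ A := by
  unfold veluT
  refine A.toSubring.sum_mem fun k _ => ?_
  have hk : p • (k • t) = 0 := by rw [smul_comm, ht, smul_zero]
  have ha₂ : VL.a₂ ∈ A := by
    subst hVL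
    rw [WeierstrassCurve.map_a₂, eq_intCast]
    exact (A.valuation_le_one_iff _).mp (valuation_intCast_le_one _)
  have ha₄ : VL.a₄ ∈ A := by
    subst hVL
    rw [WeierstrassCurve.map_a₄, eq_intCast]
    exact (A.valuation_le_one_iff _).mp (valuation_intCast_le_one _)
  have ha₁ : VL.a₁ ∈ A := by
    subst hVL
    rw [WeierstrassCurve.map_a₁, eq_intCast]
    exact (A.valuation_le_one_iff _).mp (valuation_intCast_le_one _)
  have hxy : Fermat.Agent.MAZ.ModInv.xco VL (k • t) ∈ A ∧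
      Fermat.Agent.MAZ.ModInv.yco VL (k • t) ∈ A := by
    by_cases h0 : k • t = 0
    · rw [h0]
      exact ⟨A.zero_mem, A.zero_mem⟩
    · exact xco_yco_mem_of_torsion W hvp hVL hk h0
  have h2 : (2 : L) ∈ A := by exact_mod_cast natCast_mem A 2
  have h3 : (3 : L) ∈ A := by exact_mod_cast natCast_mem A 3
  unfold gx
  exact sub_mem (A.add_mem _ _ (A.add_mem _ _ (A.mul_mem _ _ h3 (A.pow_mem hxy.1 2))
    (A.mul_mem _ _ (A.mul_mem _ _ h2 ha₂) hxy.1)) ha₄) (A.mul_mem _ _ ha₁ hxy.2)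

variable {u : L} (hu : A.valuation u = 1)
  (h₁ : ((W'.a₁ : ℤ) : L) = u * (veluCurve VL t p).a₁)
  (h₂ : ((W'.a₂ : ℤ) : L) = u ^ 2 * (veluCurve VL t p).a₂)
  (h₃ : ((W'.a₃ : ℤ) : L) = u ^ 3 * (veluCurve VL t p).a₃)
  (h₄ : ((W'.a₄ : ℤ) : L) = u ^ 4 * (veluCurve VL t p).a₄)

include hvp hVL ht hu h₁ h₂ h₃ h₄ in
/-- At a place where `240` is not a unit (`ℓ ∈ {2, 3, 5}`): `v(c₄(W)) = 1 → v(c₄(W')) = 1`, whatever the
kernel. -/
theorem val_c₄_model_eq_one (h240 : A.valuation (240 : L) < 1)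
    (h : A.valuation ((W.c₄ : ℤ) : L) = 1) : A.valuation ((W'.c₄ : ℤ) : L) = 1 := by
  have hT : A.valuation (veluT VL t p) ≤ 1 :=
    (A.valuation_le_one_iff _).mpr (veluT_mem W hvp hVL ht)
  have hc : VL.c₄ = ((W.c₄ : ℤ) : L) := by
    subst hVL
    rw [WeierstrassCurve.map_c₄, eq_intCast]
  rw [coe_c₄_model W' h₁ h₂ h₃ h₄, map_mul, map_pow, hu, one_pow, one_mul, veluCurve_c₄, hc]
  refine val_eq_one_of_sub_lt_one h ?_
  rw [add_sub_cancel_left]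
  exact val_mul_lt_one_left h240 hT

include hvp hVL ht hu h₁ h₂ h₃ h₄ in
/-- `ℓ ∣ 240`, `ℓ ∤ c₄(W) ⟹ ℓ ∤ c₄(W')` (for `A` over `ℓ`, `p` a unit of `A`), whatever the kernel. -/
theorem not_dvd_c₄_model_small {ℓ : ℕ} (hℓ : ℓ.Prime) (hA : A.LiesOverPrime ℓ) (h240 : ℓ ∣ 240)
    (h : ¬ (ℓ : ℤ) ∣ W.c₄) : ¬ (ℓ : ℤ) ∣ W'.c₄ := by
  intro hd
  have hv240 : A.valuation (240 : L) < 1 := by
    have := (valuation_natCast_lt_one_iff (L := L) hℓ hA 240).mpr h240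
    exact_mod_cast this
  have h1 := val_c₄_model_eq_one W W' hvp hVL ht hu h₁ h₂ h₃ h₄ hv240
    (valuation_intCast_eq_one hℓ hA h)
  have h2 := (valuation_intCast_lt_one_iff hℓ hA _).mpr hd
  rw [h1] at h2
  exact lt_irrefl _ h2

end Small

/-! ### the `ℚ̄`-package -/

section Qbar

local notation "Qb" => AlgebraicClosure ℚ

/-- **Type of the model `W'` at a prime `ℓ ≠ p` where the kernel is toric** (`InZero W A t`; automatic at
a prime of good reduction): `ℓ ∣ Δ(W) → ℓ ∣ Δ(W')`, and if `ℓ ∤ Δ(W)` then `ℓ ∤ Δ(W')` and every point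
of `W'` is in the zero component. -/
theorem toric_model (W W' : WeierstrassCurve ℤ) {ℓ p : ℕ} (hℓ : ℓ.Prime)
    (hp : p.Prime) (hp2 : p ≠ 2) (hne : p ≠ ℓ)
    {A : ValuationSubring Qb} (hA : A.LiesOverPrime ℓ)
    {VL : Affine Qb} (hVL : VL = (W.map (Int.castRingHom Qb)).toAffine)
    {t : VL.Point} (ht : p • t = 0) (ht0 : t ≠ 0) (htin : InZero W A t)
    (hDQ : (veluCurve VL t p).Δ * Fermat.Agent.MAZ.ModInv.psiProd VL t p = VL.Δ ^ p)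
    {u : Qb} (hu : A.valuation u = 1)
    (h₁ : ((W'.a₁ : ℤ) : Qb) = u * (veluCurve VL t p).a₁)
    (h₂ : ((W'.a₂ : ℤ) : Qb) = u ^ 2 * (veluCurve VL t p).a₂)
    (h₃ : ((W'.a₃ : ℤ) : Qb) = u ^ 3 * (veluCurve VL t p).a₃)
    (h₄ : ((W'.a₄ : ℤ) : Qb) = u ^ 4 * (veluCurve VL t p).a₄)
    (h₆ : ((W'.a₆ : ℤ) : Qb) = u ^ 6 * (veluCurve VL t p).a₆) :
    A.valuation ((W'.Δ : ℤ) : Qb) = A.valuation ((W.Δ : ℤ) : Qb) ^ p ∧
    ((ℓ : ℤ) ∣ W.Δ → (ℓ : ℤ) ∣ W'.Δ) ∧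
    (¬ (ℓ : ℤ) ∣ W.Δ → ¬ (ℓ : ℤ) ∣ W'.Δ ∧
      ∀ {VL' : Affine Qb} (_ : VL' = (W'.map (Int.castRingHom Qb)).toAffine) (R : VL'.Point),
        InZero W' A R) := by
  classical
  have hvp : A.valuation ((p : ℕ) : Qb) = 1 := valuation_p_eq_one hp hℓ (Ne.symm hne) hA
  refine ⟨val_Δ_model W W' hp hp2 hvp hVL ht ht0 htin hu h₁ h₂ h₃ h₄ h₆ hDQ,
    dvd_Δ_model_toric W W' hp hp2 hvp hVL ht ht0 htin hu h₁ h₂ h₃ h₄ h₆ hDQ hℓ hA, fun h => ⟨?_, ?_⟩⟩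
  · exact not_dvd_Δ_model_good W W' hp hp2 hvp hVL ht ht0 htin hu h₁ h₂ h₃ h₄ h₆ hDQ hℓ hA h
  · intro VL' hVL' R
    exact inZero_model_good W W' hp hp2 hvp hVL ht ht0 htin hu h₁ h₂ h₃ h₄ h₆ hDQ
      (valuation_intCast_eq_one hℓ hA h) hVL' R

end Qbar

end Fermat.Agent.S12P.Toric44
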